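import Fermat.Agent.Divisible.Main
import Fermat.Agent.MW.WeakDescent

/-!
# Rational classes over `ℚ̄` as invariant classes over `ℂ`
-/

set_option autoImplicit false
set_option linter.unusedSectionVars false
set_option linter.style.haveILetI false

noncomputable section

namespace FLTAgent.MW.Modular

open AlgebraicCurve FLTAgent.Curves FLTAgent.Specialization FLTAgent.X0Fn FLTAgent.Divisible
  ModularCurve

local notation "QA" => AlgebraicClosure ℚ
local notation "GG" => (AlgebraicClosure ℚ ≃ₐ[ℚ] AlgebraicClosure ℚ)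

/-- The embedding of the algebraic numbers as a map of `ℚ`-algebras. -/
def kapAlg : QA →ₐ[ℚ] ℂ := IsAlgClosed.lift

theorem kapAlg_apply (a : QA) : kapAlg a = kap a := rfl

/-- The restriction of an automorphism of `ℂ` to the algebraic numbers. -/
theorem exists_restrict (e : ℂ ≃ₐ[ℚ] ℂ) : ∃ σ : GG, ∀ a, kap (σ a) = e (kap a) := by
  have h : ∀ a, ∃ b, kap b = e (kap a) := fun a => mem_acl_empty.1 (by
    refine mem_acl.2 ?_
    have h1 : IsAlgebraic ℚ (e (kap a)) :=
      ((Algebra.IsAlgebraic.isAlgebraic (R := ℚ) a).algHom kapAlg).algHom e.toAlgHom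
    exact h1.tower_top _)
  choose f hf using h
  have inj := kap.injective
  let σ : QA →ₐ[ℚ] QA :=
    { toFun := f
      map_one' := inj (by rw [hf, map_one, map_one])
      map_mul' := fun a b => inj (by rw [hf, map_mul, map_mul, map_mul, hf, hf])
      map_zero' := inj (by rw [hf, map_zero, map_zero])
      map_add' := fun a b => inj (by rw [hf, map_add, map_add, map_add, hf, hf])
      commutes' := fun q => inj (by
        rw [hf, ← kapAlg_apply, AlgHom.commutes]; exact e.commutes q) }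
  exact ⟨AlgEquiv.ofBijective σ (Algebra.IsAlgebraic.algHom_bijective σ), hf⟩

variable {N : ℕ} [NeZero N]

local notation "FQ" => XF (AlgebraicClosure ℚ) N
local notation "FC" => XF ℂ N

variable (N) in
/-- The Galois action over the algebraic numbers. -/
def galQ : GG →* SemilinearAut QA FQ := arithmeticGalois (modularFunctionFieldFull N)

theorem emb_galQ {e : ℂ ≃ₐ[ℚ] ℂ} {σ : GG} (h : ∀ a, kap (σ a) = e (kap a)) (y : FQ) :
    emb N (galQ N σ • y) = gal N e • emb N y :=
  Subtype.ext (HahnSeries.ext (funext fun i => by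
    rw [coeff_gal]
    exact (coeffMap_coeff kap _ i).trans ((congrArg kap (coeffMap_coeff _ _ i)).trans
      ((h _).trans (congrArg e (coeffMap_coeff kap _ i).symm)))))

theorem algebraic'_gal {e : ℂ ≃ₐ[ℚ] ℂ} {w : Place ℂ FC} (hw : Algebraic' w) :
    Algebraic' (gal N e • w) := fun ha => by
  have hA := (affine_gal_iff e).1 ha
  rw [(jval_gal hA e).2]
  obtain ⟨a, ha'⟩ := mem_acl_empty.1 (hw hA)
  obtain ⟨σ, hσ⟩ := exists_restrict e
  exact mem_acl_empty.2 ⟨σ a, by rw [hσ, ha']⟩

theorem above_galQ {e : ℂ ≃ₐ[ℚ] ℂ} {σ : GG} (h : ∀ a, kap (σ a) = e (kap a))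
    (v : Place QA FQ) : above N (galQ N σ • v) = gal N e • above N v := by
  have ha := algebraic'_gal (e := e) (above_algebraic v)
  rw [← above_below _ ha]
  refine congrArg (above N) (place_eq_of_le fun y hy => mem_below.2 ?_)
  show emb N y ∈ (gal N e • above N v).toValuationSubring
  rw [← ordGE_zero_iff_mem] at hy ⊢
  rcases hy with rfl | hy
  · rw [map_zero]; exact ordGE_zero _ _
  refine ordGE_of_le ?_
  obtain ⟨y', rfl⟩ : ∃ y', galQ N σ • y' = y := ⟨(galQ N σ)⁻¹ • y, smul_inv_smul _ _⟩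
  rw [SemilinearAut.ord_smul] at hy
  rw [emb_galQ h, ord_gal, ord_above]
  exact hy

theorem liftDiv_galQ {e : ℂ ≃ₐ[ℚ] ℂ} {σ : GG} (h : ∀ a, kap (σ a) = e (kap a))
    (D : Divisor QA FQ) : liftDiv N (galQ N σ • D) = gal N e • liftDiv N D := by
  induction D using Finsupp.induction with
  | zero => rw [smul_zero, map_zero, smul_zero]
  | single_add v n D _ _ ih =>
      rw [smul_add, map_add, map_add, smul_add, ih, SemilinearAut.smul_single]
      congr 1
      show Finsupp.mapDomain (above N) _ = gal N e • Finsupp.mapDomain (above N) _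
      rw [Finsupp.mapDomain_single, Finsupp.mapDomain_single, SemilinearAut.smul_single,
        above_galQ h]

variable (N) in
/-- Classes over the algebraic numbers as classes over `ℂ`. -/
def liftCls : JZero N →+ Pic0 ℂ FC :=
  QuotientAddGroup.lift _ ((cls.comp (liftDiv N)).comp (Divisor.degZero (K := QA) (F := FQ)).subtype)
    fun D hD => by
      obtain ⟨y, hy, hv⟩ := AddSubgroup.mem_addSubgroupOf.1 hD
      have h : (D : Divisor QA FQ) = divOf QA y := Finsupp.ext fun v => (hv v).trans (divOf_apply _ _).symm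
      show cls (liftDiv N (D : Divisor QA FQ)) = 0
      rw [h, liftDiv_divOf]
      exact cls_divOf ((map_ne_zero (emb N)).2 hy)

theorem liftCls_mk (D : Divisor.degZero (K := QA) (F := FQ)) :
    liftCls N (Pic0.mk D) = cls (liftDiv N (D : Divisor QA FQ)) := rfl

theorem liftCls_injective : Function.Injective (liftCls N) := by
  rw [injective_iff_map_eq_zero]
  intro z hz
  obtain ⟨D, rfl⟩ := Pic0.mk_surjective z
  rw [liftCls_mk, ← map_zero (cls (N := N))] at hz
  obtain ⟨f, hf, hfD⟩ := exists_divOf_of_cls_eq (by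
    rw [degree_liftDiv, Divisor.mem_degZero.1 D.2, map_zero]) hz
  rw [zero_add] at hfD
  rw [Pic0.mk, QuotientAddGroup.eq_zero_iff, AddSubgroup.mem_addSubgroupOf]
  exact isPrincipal_of_liftDiv hf hfD

theorem liftCls_galQ {e : ℂ ≃ₐ[ℚ] ℂ} {σ : GG} (h : ∀ a, kap (σ a) = e (kap a)) (z : JZero N) :
    liftCls N (σ • z) = gal N e • liftCls N z := by
  obtain ⟨D, rfl⟩ := Pic0.mk_surjective z
  rw [galois_smul_pic0_def, SemilinearAut.pic0_smul_mk, liftCls_mk, liftCls_mk, smul_cls]
  exact congrArg cls (liftDiv_galQ h _)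

variable (N) in
/-- The rational classes seen over `ℂ`. -/
def ratCls : AddSubgroup (Pic0 ℂ FC) := (RatJac N).map (liftCls N)

theorem gal_ratCls {c : Pic0 ℂ FC} (hc : c ∈ ratCls N) (e : ℂ ≃ₐ[ℚ] ℂ) : gal N e • c = c := by
  obtain ⟨z, hz, rfl⟩ := AddSubgroup.mem_map.1 hc
  obtain ⟨σ, hσ⟩ := exists_restrict e
  rw [← liftCls_galQ hσ]
  exact congrArg (liftCls N) (hz σ)

theorem weak_ratCls : ∃ R : Finset (ratCls N), ∀ z : ratCls N,
    ∃ r ∈ R, ∃ w : ratCls N, z = r + 2 • w := by
  classical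
  obtain ⟨R, hR, hall⟩ := exists_finset_mod_two N
  refine ⟨R.attach.image fun r => ⟨liftCls N r.1, AddSubgroup.mem_map_of_mem _ (show r.1 ∈ RatJac N from fun σ => hR r.1 r.2 σ)⟩,
    fun z => ?_⟩
  obtain ⟨y, hy, hyz⟩ := AddSubgroup.mem_map.1 z.2
  obtain ⟨r, hr, w, hw, e⟩ := hall y hy
  refine ⟨_, Finset.mem_image.2 ⟨⟨r, hr⟩, Finset.mem_attach _ _, rfl⟩,
    ⟨liftCls N w, AddSubgroup.mem_map_of_mem _ (show w ∈ RatJac N from fun σ => hw σ)⟩, Subtype.ext ?_⟩
  show (z : Pic0 ℂ FC) = liftCls N r + 2 • liftCls N w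
  rw [← hyz, e, map_add, map_nsmul]

theorem fg_of_fg_ratCls (h : AddGroup.FG (ratCls N)) : AddGroup.FG (RatJac N) :=
  haveI : AddGroup.FG ((RatJac N).map (liftCls N)) := h
  AddGroup.fg_of_surjective (f := ((RatJac N).equivMapOfInjective (liftCls N)
    liftCls_injective).symm.toAddMonoidHom) ((RatJac N).equivMapOfInjective (liftCls N)
      liftCls_injective).symm.surjective

end FLTAgent.MW.Modular
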