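import Fermat.Agent.MW.Modular.Lattice
import Fermat.Agent.MW.Modular.Equivariance
import Fermat.Agent.MW.Quadratic

/-!
# Rational effective divisors on `X₀(N)` with their spaces of sections
-/

set_option autoImplicit false
set_option linter.unusedSectionVars false
set_option linter.style.haveILetI false

noncomputable section

namespace FLTAgent.MW.Modular

open AlgebraicCurve FLTAgent.Curves FLTAgent.Specialization FLTAgent.X0Fn FLTAgent.Divisible
  ModularCurve

variable {N : ℕ} [NeZero N]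

local notation "FC" => XF ℂ N

variable (N) in
/-- The realisation over `ℂ` of rational vectors. -/
abbrev ratR : Realisation (datum N) ℚ := complexRealisation (algebraMap ℚ ℂ)

/-- The function of a rational vector. -/
def fn {n : ℕ} (x : (datum N).Vec ℚ n) : FC := (ratR N).phi x

theorem fn_eq {n : ℕ} (x : (datum N).Vec ℚ n) :
    fn x = ∑ l, (algebraMap ℚ ℂ (x l)) • bas N n l := rfl

theorem fn_add {n : ℕ} (x y : (datum N).Vec ℚ n) : fn (x + y) = fn x + fn y := (ratR N).phi_add x y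

theorem fn_smul {n : ℕ} (c : ℚ) (x : (datum N).Vec ℚ n) :
    fn (c • x) = (algebraMap ℚ ℂ c) • fn x := (ratR N).phi_smul c x

theorem fn_zero {n : ℕ} : fn (0 : (datum N).Vec ℚ n) = 0 := (ratR N).phi_zero

theorem fn_mem {n : ℕ} (x : (datum N).Vec ℚ n) : fn x ∈ riemannRochSpace (nInf N n) :=
  (ratR N).phi_mem x

theorem fn_mul {a b n : ℕ} (h : a + b ≤ n) (x : (datum N).Vec ℚ a) (y : (datum N).Vec ℚ b) :
    fn ((datum N).mul a b n x y) = fn x * fn y := (ratR N).phi_mul h x y

theorem fn_injective {n : ℕ} : Function.Injective (fn (N := N) (n := n)) :=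
  (ratR N).phi_injective

theorem coeff_fn {n : ℕ} (x : (datum N).Vec ℚ n) (k : ℤ) : (fn x : LaurentSeries ℂ).coeff k =
    ∑ l, (algebraMap ℚ ℂ (x l)) * (bas N n l : LaurentSeries ℂ).coeff k := by
  classical
  rw [fn_eq, IntermediateField.coe_sum]
  induction (Finset.univ : Finset (Fin ((datum N).dim n))) using Finset.induction with
  | empty => simp
  | insert a s ha ih =>
      rw [Finset.sum_insert ha, Finset.sum_insert ha, HahnSeries.coeff_add, ih,
        IntermediateField.coe_smul, Algebra.smul_def,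
        ModularCurve.algebraMap_laurentSeries_eq_single, HahnSeries.coeff_single_zero_mul]

theorem rat_fn {n : ℕ} (x : (datum N).Vec ℚ n) :
    Rat ((⊥ : IntermediateField ℚ ℂ) : Set ℂ) (fn x) := rat_bot_iff.2 fun k => by
  rw [coeff_fn]
  refine Finset.sum_induction _ (fun c : ℂ => ∃ q : ℚ, (q : ℂ) = c)
    (fun u v hu hv => by
      obtain ⟨q, rfl⟩ := hu
      obtain ⟨q', rfl⟩ := hv
      exact ⟨q + q', Rat.cast_add _ _⟩) ⟨0, Rat.cast_zero⟩ fun l _ => ?_
  obtain ⟨z, hz⟩ := (bas_mem n l).2 k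
  exact ⟨x l * z, by rw [Rat.cast_mul, Rat.cast_intCast, hz]; rfl⟩

theorem gal_fn {n : ℕ} (x : (datum N).Vec ℚ n) (e : ℂ ≃ₐ[ℚ] ℂ) : gal N e • fn x = fn x :=
  (rat_fn x).gal_eq fun a ha => by
    obtain ⟨q, rfl⟩ := IntermediateField.mem_bot.1 ha
    exact e.commutes q

/-- Rational functions in `L(n ∞)` are given by rational vectors. -/
theorem exists_fn {n : ℕ} {x : FC} (hx : x ∈ riemannRochSpace (nInf N n))
    (hq : Rat ((⊥ : IntermediateField ℚ ℂ) : Set ℂ) x) :
    ∃ v : (datum N).Vec ℚ n, fn v = x := by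
  obtain ⟨L, hL, hint⟩ := exists_int_mul hx (rat_bot_iff.1 hq)
  have hmem : (L : FC) * x ∈ Lam N n := ⟨by
    rw [← zsmul_eq_mul]; exact (riemannRochSpace _).smul_of_tower_mem L hx, hint⟩
  obtain ⟨c, hc⟩ : ∃ c : Fin (rank N n) → ℤ, (L : FC) * x = ∑ l, (c l : ℂ) • bas N n l :=
    ⟨_, eq_sum_bas hmem⟩
  refine ⟨fun l : Fin (rank N n) => (c l : ℚ) / L, (fn_eq _).trans ?_⟩
  have h := congrArg (fun y : FC => (L : ℂ)⁻¹ • y) hc
  simp only [← zsmul_eq_mul, ← Int.cast_smul_eq_zsmul ℂ L x, smul_smul,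
    inv_mul_cancel₀ (Int.cast_ne_zero.2 hL : (L : ℂ) ≠ 0), one_smul, Finset.smul_sum] at h
  refine Eq.trans (Finset.sum_congr rfl fun l _ => ?_) h.symm
  congr 1
  show algebraMap ℚ ℂ ((c l : ℚ) / L) = (L : ℂ)⁻¹ * (c l : ℂ)
  rw [eq_ratCast, Rat.cast_div, Rat.cast_intCast, Rat.cast_intCast, div_eq_inv_mul]

theorem coeff_eq_zero_of_mem {G : Divisor ℂ FC} {x : FC} (hx : x ∈ riemannRochSpace G) {k : ℤ}
    (hk : k < -G (cusp N)) : (x : LaurentSeries ℂ).coeff k = 0 := by
  rcases eq_or_ne x 0 with rfl | hx0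
  · simp
  refine HahnSeries.coeff_eq_zero_of_lt_order (hk.trans_le ?_)
  rw [show (x : LaurentSeries ℂ).order = (cusp N).ord x from TorsionHom.order_coe _ x]
  exact (mem_rrSpace.1 hx (cusp N)).le_ord hx0

theorem coeff_mul_lowest {R : Type*} [CommRing R] {u v : LaurentSeries R} {α β : ℤ}
    (hu : ∀ k < α, u.coeff k = 0) (hv : ∀ k < β, v.coeff k = 0) :
    (u * v).coeff (α + β) = u.coeff α * v.coeff β := by
  classical
  rw [HahnSeries.coeff_mul, Finset.sum_eq_single (α, β)]
  · rintro ⟨i, j⟩ hij hne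
    rw [Finset.mem_addAntidiagonal] at hij
    rcases lt_trichotomy i α with h | h | h
    · simp [hu i h]
    · have : j = β := by omega
      exact absurd (by rw [h, this]) hne
    · simp [hv j (by omega)]
  · intro hn
    rw [Finset.mem_addAntidiagonal] at hn
    by_cases h1 : u.coeff α = 0
    · simp [h1]
    · by_cases h2 : v.coeff β = 0
      · simp [h2]
      · exact absurd ⟨h1, h2, rfl⟩ hn

variable (N) in
/-- A divisor is rational if every automorphism of `ℂ` fixes it. -/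
def IsRatDiv (E : Divisor ℂ FC) : Prop := ∀ e : ℂ ≃ₐ[ℚ] ℂ, gal N e • E = E

variable (N) in
/-- Effective rational divisors with rational class. -/
def EffRat : AddSubmonoid (Divisor ℂ FC) where
  carrier := {E | 0 ≤ E ∧ IsRatDiv N E ∧ cls E ∈ ratCls N}
  zero_mem' := ⟨le_rfl, fun e => smul_zero _, by rw [map_zero]; exact zero_mem _⟩
  add_mem' {E F} hE hF := ⟨add_nonneg hE.1 hF.1, fun e => by rw [smul_add, hE.2.1 e, hF.2.1 e],
    by rw [map_add]; exact add_mem hE.2.2 hF.2.2⟩

theorem isRatDiv_nInf (n : ℕ) : IsRatDiv N (nInf N n) := fun e => gal_nInf e n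

theorem IsRatDiv.sub {E F : Divisor ℂ FC} (hE : IsRatDiv N E) (hF : IsRatDiv N F) :
    IsRatDiv N (E - F) := fun e => by rw [smul_sub, hE e, hF e]

/-- The space of sections. -/
def secC (n : ℕ) (E : Divisor ℂ FC) : Submodule ℚ ((datum N).Vec ℚ n) where
  carrier := {x | fn x ∈ riemannRochSpace (nInf N n - E)}
  zero_mem' := Set.mem_ofPred.2 ((fn_zero (N := N) (n := n)).symm ▸ Submodule.zero_mem _)
  add_mem' {x y} hx hy := Set.mem_ofPred.2 ((fn_add x y).symm ▸ add_mem hx hy)
  smul_mem' c x hx := Set.mem_ofPred.2 ((fn_smul c x).symm ▸ Submodule.smul_mem _ _ hx)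

theorem mem_secC {n : ℕ} {E : Divisor ℂ FC} {x : (datum N).Vec ℚ n} :
    x ∈ secC n E ↔ fn x ∈ riemannRochSpace (nInf N n - E) := Iff.rfl

theorem sub_le_nInf {E : Divisor ℂ FC} (hE : 0 ≤ E) (n : ℕ) : nInf N n - E ≤ nInf N n :=
  fun v => by
    have := hE v
    simp only [Finsupp.sub_apply]
    change (0 : ℤ) ≤ E v at this
    omega

theorem span_secC {n : ℕ} {E : Divisor ℂ FC} (hE : 0 ≤ E) (hr : IsRatDiv N E) :
    (ratR N).funSpan (secC n E) = riemannRochSpace (nInf N n - E) := by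
  refine le_antisymm (Submodule.span_le.2 ?_) ?_
  · rintro _ ⟨x, hx, rfl⟩; exact hx
  refine (le_span_rat_of_stable ⊥ (sub_le_nInf hE n) (fun e _ => gal_nInf e n)
    fun e _ => (isRatDiv_nInf n).sub hr e).trans (Submodule.span_le.2 ?_)
  rintro y ⟨hy, hq⟩
  obtain ⟨v, rfl⟩ := exists_fn (rrSpace_mono (sub_le_nInf hE n) hy) hq
  exact Submodule.subset_span (R := ℂ) (s := fn '' (secC n E : Set ((datum N).Vec ℚ n))) ⟨v, hy, rfl⟩

theorem finrank_secC {n : ℕ} {E : Divisor ℂ FC} (hE : 0 ≤ E) (hr : IsRatDiv N E) :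
    (Module.finrank ℚ (secC n E) : ℤ) = ell (nInf N n - E) := by
  rw [← (ratR N).finrank_funSpan, span_secC hE hr]
  rfl

theorem exists_ne_zero_secC {n : ℕ} {E : Divisor ℂ FC} (hE : 0 ≤ E) (hr : IsRatDiv N E)
    (h : 0 < ell (nInf N n - E)) : ∃ φ ∈ secC n E, φ ≠ 0 := by
  refine (Submodule.ne_bot_iff _).1 fun hb => ?_
  rw [← finrank_secC hE hr, hb, finrank_bot] at h
  exact absurd h (by norm_num)

theorem rr_datum (G : Divisor ℂ FC) (hG : ((datum N).n₀ : ℤ) ≤ Divisor.degree G) :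
    ell G = Divisor.degree G + 1 - genus N := (ratR N).rr G hG

theorem degree_complement {n : ℕ} {φ : (datum N).Vec ℚ n} :
    Divisor.degree (divOf ℂ (fn φ) + nInf N n) = n := by
  rw [map_add, degree_divOf, degree_nInf, zero_add]

theorem gal_divOf_fn {n : ℕ} (φ : (datum N).Vec ℚ n) : IsRatDiv N (divOf ℂ (fn φ)) := fun e => by
  refine Finsupp.ext fun v => ?_
  rw [SemilinearAut.divisor_smul_apply, divOf_apply, divOf_apply]
  conv_rhs => rw [← smul_inv_smul (gal N e) v, ← gal_fn φ e, ord_gal]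

/-- The complementary divisor of a section. -/
theorem exists_complement {n : ℕ} {E : Divisor ℂ FC} (hr : IsRatDiv N E) {φ : (datum N).Vec ℚ n}
    (hφ : φ ∈ secC n E) (h0 : φ ≠ 0) : 0 ≤ divOf ℂ (fn φ) + nInf N n - E ∧
      IsRatDiv N (divOf ℂ (fn φ) + nInf N n - E) ∧
        cls (divOf ℂ (fn φ) + nInf N n - E) = -cls E := by
  have hf : fn φ ≠ 0 := fun h => h0 (fn_injective (h.trans fn_zero.symm))
  refine ⟨?_, IsRatDiv.sub (fun e => by rw [smul_add, gal_divOf_fn φ e, gal_nInf]) hr, ?_⟩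
  · have := (mem_rrSpace_iff_divOf hf).1 hφ
    rwa [add_sub_assoc]
  · rw [map_sub, map_add, cls_divOf hf, nInf, cls_single_cusp, add_zero, zero_sub]

theorem map_mul_secC {m n : ℕ} {F : Divisor ℂ FC} (hF : 0 ≤ F) (hFr : IsRatDiv N F)
    {φ : (datum N).Vec ℚ m} (hφ : φ ≠ 0) (hd : 0 ≤ divOf ℂ (fn φ) + nInf N m) :
    (secC n F).map ((datum N).mul m n (m + n) φ) =
      secC (m + n) (F + (divOf ℂ (fn φ) + nInf N m)) := by
  have hf : fn φ ≠ 0 := fun h => hφ (fn_injective (h.trans fn_zero.symm))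
  have hG : nInf N (m + n) - (F + (divOf ℂ (fn φ) + nInf N m)) =
      nInf N n - F - divOf ℂ (fn φ) := by
    simp only [nInf, Nat.cast_add, Finsupp.single_add]; abel
  refine le_antisymm ?_ fun z hz => ?_
  · rintro _ ⟨x, hx, rfl⟩
    rw [mem_secC, hG, fn_mul le_rfl, ← rrSpace_map_mul _ hf]
    exact ⟨fn x, hx, rfl⟩
  rw [mem_secC, hG, ← rrSpace_map_mul _ hf] at hz
  obtain ⟨y, hy, hyz⟩ := hz
  have hrat : Rat ((⊥ : IntermediateField ℚ ℂ) : Set ℂ) y :=
    rat_of_gal_eq ⊥ fun e _ => mul_left_cancel₀ hf (by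
      show fn φ * gal N e • y = fn φ * y
      nth_rw 1 [← gal_fn φ e]
      rw [← smul_mul']
      have hy' : fn φ * y = fn z := hyz
      rw [hy', gal_fn])
  obtain ⟨v, rfl⟩ := exists_fn (rrSpace_mono (sub_le_nInf hF n) hy) hrat
  exact ⟨v, hy, fn_injective ((fn_mul le_rfl _ _).trans hyz)⟩

theorem exists_one : ∃ v : (datum N).Vec ℚ 0, fn v = 1 :=
  exists_fn (one_mem_rrSpace fun w => by
    classical
    rw [nInf, Finsupp.single_apply]; split_ifs <;> simp)
    (rat_bot_iff.2 fun k => ⟨if k = 0 then 1 else 0, by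
      rw [IntermediateField.coe_one, HahnSeries.coeff_one]; split_ifs <;> simp⟩)

variable (N) in
/-- The constant function one. -/
def oneVec : (datum N).Vec ℚ 0 := (exists_one (N := N)).choose

theorem fn_one : fn (oneVec N) = 1 := (exists_one (N := N)).choose_spec

theorem fn_shift (n : ℕ) (x : (datum N).Vec ℚ n) :
    fn ((datum N).mul 0 n (n + 1) (oneVec N) x) = fn x := by
  rw [fn_mul (by omega), fn_one, one_mul]

theorem nInf_succ (n : ℕ) : nInf N (n + 1) = nInf N n + Finsupp.single (cusp N) 1 := by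
  simp only [nInf, Nat.cast_succ, Finsupp.single_add]

theorem single_cusp_nonneg : (0 : Divisor ℂ FC) ≤ Finsupp.single (cusp N) 1 := fun v => by
  classical
  rw [Finsupp.single_apply]; split_ifs <;> simp

theorem shift_mem_secC {n : ℕ} {E : Divisor ℂ FC} {x : (datum N).Vec ℚ n} (hx : x ∈ secC n E) :
    (datum N).mul 0 n (n + 1) (oneVec N) x ∈ secC (n + 1) E := by
  rw [mem_secC, fn_shift]
  refine rrSpace_mono (fun v => ?_) hx
  have := single_cusp_nonneg (N := N) v
  simp only [nInf_succ, Finsupp.sub_apply, Finsupp.add_apply] at this ⊢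
  change (0 : ℤ) ≤ _ at this
  omega

theorem mem_shift_of_mem {n : ℕ} {E : Divisor ℂ FC} (hE : 0 ≤ E) {x : (datum N).Vec ℚ (n + 1)}
    (hx : fn x ∈ riemannRochSpace (nInf N n - E)) :
    x ∈ (secC n E).map ((datum N).mul 0 n (n + 1) (oneVec N)) := by
  obtain ⟨y, hy⟩ := exists_fn (rrSpace_mono (sub_le_nInf hE n) hx) (rat_fn x)
  exact ⟨y, by rw [SetLike.mem_coe, mem_secC, hy]; exact hx,
    fn_injective ((fn_shift n y).trans hy)⟩

variable (N) in
/-- Coefficient functionals. -/
def evC (j n : ℕ) (l : Fin ((datum N).dim n)) : ℤ :=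
  ((bas_mem (N := N) n l).2 (-(n : ℤ) + j)).choose

theorem ev_eq (j n : ℕ) (x : (datum N).Vec ℚ n) :
    ((∑ l, (evC N j n l : ℚ) * x l : ℚ) : ℂ) = (fn x : LaurentSeries ℂ).coeff (-(n : ℤ) + j) := by
  rw [coeff_fn, Rat.cast_sum]
  refine Finset.sum_congr rfl fun l _ => ?_
  rw [Rat.cast_mul, Rat.cast_intCast, evC, Exists.choose_spec ((bas_mem (N := N) n l).2 _),
    mul_comm]
  rfl

theorem ev_mul_C {a b n : ℕ} (h : a + b = n) {E : Divisor ℂ FC} {j : ℕ} (hj : E (cusp N) = j)
    (x : (datum N).Vec ℚ a) {y : (datum N).Vec ℚ b} (hy : y ∈ secC b E) :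
    ∑ l, (evC N j n l : ℚ) * (datum N).mul a b n x y l =
      (∑ l, (evC N 0 a l : ℚ) * x l) * ∑ l, (evC N j b l : ℚ) * y l := by
  refine Rat.cast_injective (α := ℂ) ?_
  rw [Rat.cast_mul, ev_eq, ev_eq, ev_eq, fn_mul h.le, IntermediateField.coe_mul, Nat.cast_zero,
    add_zero, show -(n : ℤ) + j = -(a : ℤ) + (-(b : ℤ) + j) by omega]
  refine coeff_mul_lowest (fun k hk => coeff_eq_zero_of_mem (fn_mem x) ?_)
    (fun k hk => coeff_eq_zero_of_mem hy ?_)
  · rw [nInf, Finsupp.single_eq_same]; exact hk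
  · rw [Finsupp.sub_apply, nInf, Finsupp.single_eq_same, hj]; omega

theorem ev_shift_C {n : ℕ} {E : Divisor ℂ FC} {j : ℕ} (hj : E (cusp N) = j)
    {x : (datum N).Vec ℚ n} (hx : x ∈ secC n E) :
    ∑ l, (evC N j (n + 1) l : ℚ) * (datum N).mul 0 n (n + 1) (oneVec N) x l = 0 := by
  refine Rat.cast_injective (α := ℂ) ?_
  rw [ev_eq, Rat.cast_zero, fn_shift]
  exact coeff_eq_zero_of_mem hx (by rw [Finsupp.sub_apply, nInf, Finsupp.single_eq_same, hj]; omega)

theorem ev_zero_C {n : ℕ} {E : Divisor ℂ FC} (hE : 0 ≤ E) {j : ℕ} (hj : E (cusp N) = j)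
    {x : (datum N).Vec ℚ (n + 1)} (hx : x ∈ secC (n + 1) E)
    (h0 : ∑ l, (evC N j (n + 1) l : ℚ) * x l = 0) :
    x ∈ (secC n E).map ((datum N).mul 0 n (n + 1) (oneVec N)) := by
  refine mem_shift_of_mem hE (mem_rrSpace.2 fun v => ?_)
  rcases eq_or_ne v (cusp N) with rfl | hv
  · rcases eq_or_ne (fn x) 0 with h | h
    · exact Or.inl h
    refine ordGE_of_le ?_
    have h1 := (mem_rrSpace.1 hx (cusp N)).le_ord h
    rw [Finsupp.sub_apply, nInf, Finsupp.single_eq_same, hj] at h1 ⊢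
    rcases eq_or_lt_of_le h1 with h2 | h2
    · exfalso
      have h3 := congrArg (fun q : ℚ => (q : ℂ)) h0
      simp only [ev_eq, Rat.cast_zero] at h3
      refine h (Subtype.ext (HahnSeries.coeff_order_eq_zero.1 ?_))
      rw [show (fn x : LaurentSeries ℂ).order = (cusp N).ord (fn x) from TorsionHom.order_coe _ _,
        ← h2]
      convert h3 using 2
      omega
    · push_cast at h2; omega
  · have h1 := mem_rrSpace.1 hx v
    simp only [Finsupp.sub_apply, nInf, Finsupp.single_eq_of_ne hv] at h1 ⊢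
    exact h1

theorem secC_zero (n : ℕ) : secC n (0 : Divisor ℂ FC) = ⊤ :=
  eq_top_iff.2 fun x _ => by rw [mem_secC, sub_zero]; exact fn_mem x

theorem isSec_secC {n d : ℕ} {E : Divisor ℂ FC} (hE : 0 ≤ E) (hr : IsRatDiv N E)
    (hd : Divisor.degree E = d) (hn : (datum N).n₀ + d + 1 ≤ n) :
    IsSec (datum N) n d (secC n E) := by
  have key : ∀ m : ℕ, (datum N).n₀ + d ≤ m →
      Module.finrank ℚ (secC m E) + d + (datum N).g = m + 1 := fun m hm => by
    have h1 := finrank_secC (n := m) hE hr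
    rw [rr_datum _ (by rw [map_sub, degree_nInf, hd]; omega), map_sub, degree_nInf, hd] at h1
    have : (datum N).g = genus N := rfl
    omega
  refine ⟨key n (by omega), secC _ E, key _ (by omega), fun x hx y => ?_⟩
  rw [mem_secC, fn_mul le_rfl]
  refine rrSpace_mono (fun v => ?_) (mem_rrSpace_mul hx (fn_mem y))
  classical
  simp only [nInf, Finsupp.add_apply, Finsupp.sub_apply]
  rw [Finsupp.single_apply, Finsupp.single_apply, Finsupp.single_apply]
  split_ifs <;> push_cast <;> omega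

/-- An effective representative moving in no pencil. -/
theorem exists_alone (z : Pic0 ℂ FC) : ∃ E : Divisor ℂ FC,
    0 ≤ E ∧ cls E = z ∧ ell E = 1 ∧ Divisor.degree E ≤ genus N := by
  classical
  have hex : ∃ d : ℕ, ∃ E : Divisor ℂ FC, 0 ≤ E ∧ Divisor.degree E = d ∧ cls E = z := by
    obtain ⟨E, h1, h2, h3⟩ := exists_eff z
    exact ⟨genus N, E, h1, by rw [h2, genus_cast], h3⟩
  obtain ⟨E, hE, hdE, hcE⟩ := Nat.find_spec hex
  have hmin : Nat.find hex ≤ genus N := Nat.find_min' hex (by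
    obtain ⟨E', h1, h2, h3⟩ := exists_eff z
    exact ⟨E', h1, by rw [h2, genus_cast], h3⟩)
  refine ⟨E, hE, hcE, le_antisymm (le_of_not_gt fun h2 => ?_) ?_, by omega⟩
  · have hsub : E - Finsupp.single (cusp N) 1 ≤ E := fun w => by
      rw [Finsupp.sub_apply, Finsupp.single_apply]; split_ifs <;> omega
    have h3 := ell_sub_le hsub
    rw [map_sub, degree_single'] at h3
    obtain ⟨f, hf, hf0⟩ := (Submodule.ne_bot_iff _).1
      (fun hb : riemannRochSpace (E - Finsupp.single (cusp N) 1) = ⊥ => by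
        have h4 : ell (E - Finsupp.single (cusp N) 1) = 0 := by rw [ell, hb, finrank_bot]; rfl
        omega)
    obtain ⟨E', hE'd⟩ : ∃ E', E' = E - Finsupp.single (cusp N) 1 + divOf ℂ f := ⟨_, rfl⟩
    have hE' : 0 ≤ E' := by
      rw [hE'd, add_comm]; exact (mem_rrSpace_iff_divOf hf0).1 hf
    have hd' := degree_nonneg hE'
    have hdeg : Divisor.degree E' = Divisor.degree E - 1 := by
      rw [hE'd, map_add, map_sub, degree_single', degree_divOf, add_zero]
    refine Nat.find_min hex (m := (Divisor.degree E').toNat) ?_ ⟨E', hE', ?_, ?_⟩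
    · omega
    · rw [Int.toNat_of_nonneg hd']
    · rw [hE'd, map_add, map_sub, cls_single_cusp, cls_divOf hf0, hcE, sub_zero, add_zero]
  · have h1 := ell_mono hE
    rwa [ell_zero] at h1

theorem exists_rat_rep {z : Pic0 ℂ FC} (hz : z ∈ ratCls N) :
    ∃ E ∈ EffRat N, Divisor.degree E = genus N ∧ cls E = z := by
  obtain ⟨E, hE, hc, hell, hd⟩ := exists_alone z
  have hr : IsRatDiv N E := fun e => eq_of_ell_one hE
    (fun v => by rw [SemilinearAut.divisor_smul_apply]; exact hE _) hell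
    (SemilinearAut.degree_smul _ _) (by rw [← smul_cls, hc, gal_ratCls hz])
  have hd0 := degree_nonneg hE
  obtain ⟨k, hk⟩ : ∃ k : ℕ, Divisor.degree E + k = genus N :=
    ⟨((genus N : ℤ) - Divisor.degree E).toNat, by omega⟩
  refine ⟨E + nInf N k, ⟨add_nonneg hE (Finsupp.single_nonneg.2 (by omega)),
    fun e => by rw [smul_add, hr e, gal_nInf],
    by rw [map_add, nInf, cls_single_cusp, add_zero, hc]; exact hz⟩,
    by rw [map_add, degree_nInf, hk], by rw [map_add, nInf, cls_single_cusp, add_zero, hc]⟩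

theorem exists_first {d : ℕ} {E : Divisor ℂ FC} (hE : 0 ≤ E) (hr : IsRatDiv N E)
    (hd : Divisor.degree E = d) : ∃ (m : ℕ) (φ : (datum N).Vec ℚ m), φ ≠ 0 ∧
      m ≤ d + genus N ∧ secC m E = Submodule.span ℚ {φ} := by
  classical
  have hex : ∃ m : ℕ, 0 < ell (nInf N m - E) := by
    refine ⟨d + genus N, ?_⟩
    have h := rr_lower (nInf N (d + genus N) - E)
    rw [map_sub, degree_nInf, hd, ← genus_cast] at h
    push_cast at h
    omega
  have hm : Nat.find hex ≤ d + genus N := Nat.find_min' hex (by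
    have h := rr_lower (nInf N (d + genus N) - E)
    rw [map_sub, degree_nInf, hd, ← genus_cast] at h
    push_cast at h
    omega)
  have h1 : ell (nInf N (Nat.find hex) - E) ≤ 1 := by
    rcases Nat.eq_zero_or_pos (Nat.find hex) with h0 | h0
    · rw [h0]
      refine (ell_mono (E := 0) ?_).trans ell_zero.le
      have := sub_le_nInf hE 0
      rwa [show nInf N 0 = 0 from Finsupp.single_zero _] at this ⊢
    · obtain ⟨k, hk⟩ : ∃ k, Nat.find hex = k + 1 := ⟨Nat.find hex - 1, by omega⟩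
      have h2 : ¬ 0 < ell (nInf N k - E) := Nat.find_min hex (by omega)
      have h3 := ell_sub_le (D := nInf N k - E) (E := nInf N (k + 1) - E) (fun v => by
        have := single_cusp_nonneg (N := N) v
        simp only [nInf_succ, Finsupp.sub_apply, Finsupp.add_apply] at this ⊢
        change (0 : ℤ) ≤ _ at this
        omega)
      rw [map_sub, map_sub, degree_nInf, degree_nInf] at h3
      rw [hk]; push_cast at h3; omega
  have h2 := Nat.find_spec hex
  obtain ⟨φ, hφ, hφ0⟩ := exists_ne_zero_secC hE hr h2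
  refine ⟨Nat.find hex, φ, hφ0, hm, (Submodule.eq_of_le_of_finrank_le ?_ ?_).symm⟩
  · exact Submodule.span_le.2 (by simpa using hφ)
  · have h3 := finrank_secC (n := Nat.find hex) hE hr
    rw [finrank_span_singleton hφ0]
    omega

variable (N) in
/-- The degree of a rational effective divisor. -/
def degC : EffRat N →+ ℕ where
  toFun E := (Divisor.degree (E : Divisor ℂ FC)).toNat
  map_zero' := by simp
  map_add' E F := by
    rw [AddSubmonoid.coe_add, map_add]
    exact Int.toNat_add (degree_nonneg E.2.1) (degree_nonneg F.2.1)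

theorem degC_cast (E : EffRat N) : (degC N E : ℤ) = Divisor.degree (E : Divisor ℂ FC) :=
  Int.toNat_of_nonneg (degree_nonneg E.2.1)

variable (N) in
/-- The class of a rational effective divisor. -/
def clsC : EffRat N →+ ratCls N where
  toFun E := ⟨cls (E : Divisor ℂ FC), E.2.2.2⟩
  map_zero' := Subtype.ext (map_zero cls)
  map_add' E F := Subtype.ext (map_add cls _ _)

theorem cusp_mem_EffRat : Finsupp.single (cusp N) (1 : ℤ) ∈ EffRat N :=
  ⟨single_cusp_nonneg, fun e => gal_single_cusp e 1, by rw [cls_single_cusp]; exact zero_mem _⟩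

/-- The multiplicity of the cusp. -/
def multC (E : EffRat N) : ℕ := ((E : Divisor ℂ FC) (cusp N)).toNat

theorem multC_cast (E : EffRat N) : (E : Divisor ℂ FC) (cusp N) = (multC E : ℤ) :=
  (Int.toNat_of_nonneg (E.2.1 (cusp N))).symm

theorem multC_le (E : EffRat N) : multC E ≤ degC N E := by
  have h : (Finsupp.single (cusp N) ((E : Divisor ℂ FC) (cusp N)) : Divisor ℂ FC) ≤ E := fun v => by
    classical
    rw [Finsupp.single_apply]
    split_ifs with hv
    · subst hv; exact le_rfl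
    · exact E.2.1 v
  have h' := degree_mono h
  rw [degree_single', multC_cast, ← degC_cast] at h'
  omega

theorem exists_equiv (d : ℕ) (E E' : EffRat N) (hd : degC N E = d) (hd' : degC N E' = d)
    (h : clsC N E = clsC N E') : ∃ φ ψ : (datum N).Vec ℚ (d + genus N), φ ≠ 0 ∧ ψ ≠ 0 ∧
      ∀ n : ℕ, (secC n (E : Divisor ℂ FC)).map ((datum N).mul (d + genus N) n (d + genus N + n) ψ) =
        (secC n (E' : Divisor ℂ FC)).map ((datum N).mul (d + genus N) n (d + genus N + n) φ) := by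
  obtain ⟨m, hm⟩ : ∃ m, m = d + genus N := ⟨_, rfl⟩
  rw [← hm]
  have e1 : Divisor.degree (E : Divisor ℂ FC) = d := by rw [← degC_cast, hd]
  have e2 : Divisor.degree (E' : Divisor ℂ FC) = d := by rw [← degC_cast, hd']
  have hc : cls (E : Divisor ℂ FC) = cls (E' : Divisor ℂ FC) := congrArg Subtype.val h
  obtain ⟨φ, hφ, hφ0⟩ := exists_ne_zero_secC (n := m) E.2.1 E.2.2.1 (by
    have h1 := rr_lower (nInf N m - (E : Divisor ℂ FC))
    rw [map_sub, degree_nInf, e1, hm, ← genus_cast] at h1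
    push_cast at h1
    rw [hm]
    omega)
  obtain ⟨hC, hCr, hCc⟩ := exists_complement E.2.2.1 hφ hφ0
  obtain ⟨C, hCdef⟩ : ∃ C, divOf ℂ (fn φ) + nInf N m - (E : Divisor ℂ FC) = C := ⟨_, rfl⟩
  rw [hCdef] at hC hCr hCc
  have hCd : Divisor.degree C = (m : ℤ) - d := by
    rw [← hCdef, map_sub, degree_complement, e1]
  obtain ⟨f, hf0, hf⟩ := exists_divOf_of_cls_eq (D := (E' : Divisor ℂ FC) + C) (E := nInf N m)
    (by rw [map_add, e2, hCd, degree_nInf]; ring)
    (by rw [map_add, hCc, hc, nInf, cls_single_cusp, add_neg_cancel])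
  obtain ⟨ψ, hψ, hψ0⟩ := exists_ne_zero_secC (n := m) (add_nonneg E'.2.1 hC)
    (fun e => by rw [smul_add, E'.2.2.1 e, hCr e]) (by
      have h1 : ell (nInf N m - ((E' : Divisor ℂ FC) + C)) = 1 := by
        rw [hf, sub_add_cancel_left, ← zero_sub (divOf ℂ f), ell_sub_divOf _ hf0, ell_zero]
      rw [h1]; exact one_pos)
  have hfψ : fn ψ ≠ 0 := fun h => hψ0 (fn_injective (h.trans fn_zero.symm))
  have hle : (E' : Divisor ℂ FC) + C ≤ divOf ℂ (fn ψ) + nInf N m := by
    have h1 := (mem_rrSpace_iff_divOf hfψ).1 hψ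
    rw [← add_sub_assoc] at h1
    exact sub_nonneg.1 h1
  have heq := eq_of_le_of_degree_le hle (by rw [degree_complement, map_add, e2, hCd]; omega)
  refine ⟨φ, ψ, hφ0, hψ0, fun n => ?_⟩
  have hφeq : divOf ℂ (fn φ) + nInf N m = (E : Divisor ℂ FC) + C := by
    rw [← hCdef, add_sub_cancel]
  rw [map_mul_secC E.2.1 E.2.2.1 hψ0 (heq ▸ add_nonneg E'.2.1 hC),
    map_mul_secC E'.2.1 E'.2.2.1 hφ0 (hφeq ▸ add_nonneg E.2.1 hC), ← heq, hφeq]
  congr 1
  abel

variable (N) in
/-- Rational effective divisors as an abstract system. -/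
def sys : Sys (datum N) (ratCls N) where
  M := EffRat N
  deg := degC N
  cls := clsC N
  O := ⟨_, cusp_mem_EffRat⟩
  deg_O := by
    show (Divisor.degree (Finsupp.single (cusp N) (1 : ℤ) : Divisor ℂ FC)).toNat = 1
    rw [degree_single']; rfl
  cls_O := Subtype.ext (cls_single_cusp 1)
  sec n E := secC n (E : Divisor ℂ FC)
  one := oneVec N
  mult := multC
  mult_le := multC_le
  ev := evC N
  one_ne h := by
    have h1 := fn_one (N := N)
    rw [h, fn_zero] at h1
    exact zero_ne_one h1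
  isSec n E hn := isSec_secC E.2.1 E.2.2.1 (degC_cast E).symm hn
  sec_zero := secC_zero
  sec_mul a b n E E' h x hx y hy := by
    rw [mem_secC, fn_mul h.le, AddSubmonoid.coe_add]
    refine rrSpace_le (le_of_eq ?_) (mem_rrSpace_mul hx hy)
    rw [← h]
    simp only [nInf, Nat.cast_add, Finsupp.single_add]
    abel
  sec_anti n E F x hx := by
    rw [mem_secC] at hx ⊢
    refine rrSpace_mono (fun v => ?_) hx
    have := F.2.1 v
    simp only [AddSubmonoid.coe_add, Finsupp.sub_apply, Finsupp.add_apply]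
    change (0 : ℤ) ≤ _ at this
    omega
  sec_add_O n E := by
    refine le_antisymm (fun x hx => mem_shift_of_mem E.2.1 ?_) ?_
    · refine rrSpace_le (le_of_eq ?_) hx
      rw [AddSubmonoid.coe_add, nInf_succ]
      simp
    · rintro _ ⟨y, hy, rfl⟩
      rw [mem_secC, fn_shift, AddSubmonoid.coe_add, nInf_succ]
      refine rrSpace_le (le_of_eq ?_) hy
      simp
  sec_inj n E E' hn hd h := by
    refine Subtype.ext (congrArg cls ?_)
    have h1 := congrArg (ratR N).funSpan h
    rw [span_secC E.2.1 E.2.2.1, span_secC E'.2.1 E'.2.2.1] at h1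
    have hb := rBound_le (N := N)
    have h' : (datum N).n₀ = thr N + genus N := rfl
    have e1 := degC_cast E
    have e2 := degC_cast E'
    have h2 := eq_of_rrSpace_eq h1 (by rw [map_sub, degree_nInf]; omega)
      (by rw [map_sub, degree_nInf]; omega)
    exact sub_right_inj.1 h2
  equiv d := ⟨d + genus N, fun E E' hd hd' h => by
    obtain ⟨φ, ψ, h1, h2, h3⟩ := exists_equiv d E E' hd hd' h
    exact ⟨φ, ψ, h1, h2, fun n _ => h3 n⟩⟩
  exists_rep c := by
    obtain ⟨E, hE, hd, hc⟩ := exists_rat_rep c.2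
    refine ⟨⟨E, hE⟩, ?_, Subtype.ext hc⟩
    show (Divisor.degree E).toNat = genus N
    omega
  ev_mul a b n h E x y hy := ev_mul_C h (multC_cast E) x hy
  ev_lead m hm := by
    have h' : (datum N).n₀ = thr N + genus N := rfl
    obtain ⟨i, hi⟩ := exists_exact_bas (N := N) (m := m) (by omega)
    refine ⟨Pi.single i 1, fun h => ?_⟩
    have h2 : (evC N 0 m i : ℚ) = 0 := by
      have h3 := h
      simp [Pi.single_apply] at h3
      exact_mod_cast h3
    rw [Int.cast_eq_zero] at h2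
    have h1 := ((bas_mem (N := N) m i).2 (-(m : ℤ) + (0 : ℕ))).choose_spec
    change ((evC N 0 m i : ℤ) : ℂ) = _ at h1
    rw [h2, Int.cast_zero, Nat.cast_zero, add_zero, ← hi] at h1
    rw [show (cusp N).ord (bas N m i) = (bas N m i : LaurentSeries ℂ).order from
      (TorsionHom.order_coe _ _).symm] at h1
    exact (linearIndependent_bas (N := N) m).ne_zero i
      (Subtype.ext (HahnSeries.coeff_order_eq_zero.1 h1.symm))
  ev_shift n E x hx := ev_shift_C (multC_cast E) hx
  ev_zero n E x hx h := ev_zero_C E.2.1 (multC_cast E) hx h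
  shift_mem n E := by
    rintro _ ⟨y, hy, rfl⟩
    exact shift_mem_secC hy
  first E := by
    obtain ⟨m, φ, hφ0, hm, hsec⟩ := exists_first E.2.1 E.2.2.1 (degC_cast E).symm
    obtain ⟨hC, hCr, hCc⟩ := exists_complement E.2.2.1 (hsec ▸ Submodule.mem_span_singleton_self φ)
      hφ0
    have hd : Divisor.degree (divOf ℂ (fn φ) + nInf N m - (E : Divisor ℂ FC)) = m - degC N E := by
      rw [map_sub, degree_complement, degC_cast]
    refine ⟨m, φ, ⟨_, hC, hCr, by rw [hCc]; exact neg_mem E.2.2.2⟩, hφ0, hm, ?_, ?_, hsec,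
      fun n _ => ?_⟩
    · show degC N E + (Divisor.degree (divOf ℂ (fn φ) + nInf N m - (E : Divisor ℂ FC))).toNat = m
      have := degree_nonneg hC
      omega
    · refine Subtype.ext ?_
      show cls (E : Divisor ℂ FC) + cls _ = 0
      rw [hCc, add_neg_cancel]
    · have e : (E : Divisor ℂ FC) + (divOf ℂ (fn φ) + nInf N m - (E : Divisor ℂ FC)) =
          0 + (divOf ℂ (fn φ) + nInf N m) := by abel
      rw [AddSubmonoid.coe_add, e, ← secC_zero n, map_mul_secC le_rfl (fun e => smul_zero _) hφ0]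
      have := add_nonneg E.2.1 hC
      rwa [e, zero_add] at this

end FLTAgent.MW.Modular
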