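import Fermat.Agent.Divisible.Descent
import Fermat.Agent.CuspForms.Descent
import Fermat.Agent.Specialization.Modular

/-!
# Bounded denominators for rational functions regular away from the cusp at infinity
-/

set_option autoImplicit false
set_option linter.unusedSectionVars false
set_option linter.style.haveILetI false

noncomputable section

namespace FLTAgent.MW.Modular

open AlgebraicCurve FLTAgent.Curves FLTAgent.Specialization FLTAgent.X0Fn FLTAgent.Divisible
  ModularCurve Polynomial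

/-- Series with integral coefficients. -/
def IntS (x : LaurentSeries ℂ) : Prop := ∀ i : ℤ, ∃ z : ℤ, (z : ℂ) = x.coeff i

/-- Series which become spans of integral power series after a shift. -/
def Shift (y : LaurentSeries ℂ) : Prop :=
  ∃ M₀ : ℕ, ∀ M : ℕ, M₀ ≤ M → ∃ f ∈ CuspForms.intSpan,
    HahnSeries.ofPowerSeries ℤ ℂ f = HahnSeries.single (M : ℤ) 1 * y

theorem ofPowerSeries_shift {R : Type*} [CommRing R] (y : LaurentSeries R) (M : ℕ)
    (h : ∀ i : ℤ, i < -(M : ℤ) → y.coeff i = 0) :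
    HahnSeries.ofPowerSeries ℤ R (PowerSeries.mk fun i => y.coeff ((i : ℤ) - M)) =
      HahnSeries.single (M : ℤ) 1 * y := by
  ext k
  have hk : (HahnSeries.single (M : ℤ) (1 : R) * y).coeff k = y.coeff (k - M) := by
    have := HahnSeries.coeff_single_mul_add (r := (1 : R)) (x := y) (a := k - M) (b := (M : ℤ))
    rwa [sub_add_cancel, one_mul] at this
  rw [hk]
  rcases le_or_gt 0 k with h0 | h0
  · lift k to ℕ using h0
    rw [HahnSeries.ofPowerSeries_apply_coeff, PowerSeries.coeff_mk]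
  · rw [ofPowerSeries_coeff_of_neg _ h0, h _ (by omega)]

theorem shift_intCast (z : LaurentSeries ℤ) : Shift (coeffMap (Int.castRingHom ℂ) z) := by
  refine ⟨(-z.order).toNat, fun M hM => ?_⟩
  refine ⟨CuspForms.intIncl (PowerSeries.mk fun i => z.coeff ((i : ℤ) - M)),
    CuspForms.intIncl_mem_intSpan _, ?_⟩
  rw [← ofPowerSeries_shift _ M fun i hi => by
    rw [coeffMap_coeff, HahnSeries.coeff_eq_zero_of_lt_order (by omega), map_zero]]
  congr 1

theorem shift_algebraMap (c : ℂ) : Shift (algebraMap ℂ (LaurentSeries ℂ) c) := by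
  refine ⟨0, fun M _ => ⟨c • PowerSeries.X ^ M, Subalgebra.smul_mem _ ?_ _, ?_⟩⟩
  · have : CuspForms.intIncl (PowerSeries.X ^ M) = (PowerSeries.X ^ M : PowerSeries ℂ) := by
      rw [map_pow, CuspForms.intIncl, PowerSeries.map_X]
    exact this ▸ CuspForms.intIncl_mem_intSpan _
  · rw [PowerSeries.smul_eq_C_mul, map_mul, map_pow, HahnSeries.ofPowerSeries_C,
      HahnSeries.ofPowerSeries_X, HahnSeries.single_pow,
      ModularCurve.algebraMap_laurentSeries_eq_single, HahnSeries.C_apply, mul_comm]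
    simp

theorem Shift.add {a b : LaurentSeries ℂ} (ha : Shift a) (hb : Shift b) : Shift (a + b) := by
  obtain ⟨A, hA⟩ := ha
  obtain ⟨B, hB⟩ := hb
  refine ⟨max A B, fun M hM => ?_⟩
  obtain ⟨f, hf, hfa⟩ := hA M ((le_max_left _ _).trans hM)
  obtain ⟨g, hg, hgb⟩ := hB M ((le_max_right _ _).trans hM)
  exact ⟨f + g, add_mem hf hg, by rw [map_add, hfa, hgb, mul_add]⟩

theorem Shift.mul {a b : LaurentSeries ℂ} (ha : Shift a) (hb : Shift b) : Shift (a * b) := by
  obtain ⟨A, hA⟩ := ha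
  obtain ⟨B, hB⟩ := hb
  refine ⟨A + B, fun M hM => ?_⟩
  obtain ⟨f, hf, hfa⟩ := hA A le_rfl
  obtain ⟨g, hg, hgb⟩ := hB (M - A) (by omega)
  refine ⟨f * g, mul_mem hf hg, ?_⟩
  rw [map_mul, hfa, hgb, mul_mul_mul_comm, HahnSeries.single_mul_single, one_mul,
    show ((A : ℤ) + ((M - A : ℕ) : ℤ)) = (M : ℤ) by omega]

variable {N : ℕ} [NeZero N]

local notation "FC" => XF ℂ N
local notation "jC" => jF ℂ N

theorem shift_of_mem_XA {a : LaurentSeries ℂ} (ha : a ∈ XA ℂ N) : Shift a := by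
  induction ha using Algebra.adjoin_induction with
  | mem x hx =>
      obtain ⟨q, ⟨d, hd0, -, rfl⟩, rfl⟩ := hx
      have h : jq = coeffMap (Int.castRingHom ℚ) (jqModC ℤ) := by
        rw [coeffMap_jqModC]; rfl
      rw [coeffEmb, h, ← coeffMap_qExpand, ModularCurve.coeffMap_coeffMap,
        ModularCurve.coeffMap_congr (g := Int.castRingHom ℂ) (RingHom.ext_int _ _)]
      exact shift_intCast _
  | algebraMap c => exact shift_algebraMap c
  | add _ _ _ _ h1 h2 => exact h1.add h2
  | mul _ _ _ _ h1 h2 => exact h1.mul h2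

theorem shift_aeval (p : ℂ[X]) : Shift ((aeval jC p : FC) : LaurentSeries ℂ) := by
  rw [jF, aeval_algHom_apply]
  exact shift_of_mem_XA (aeval (jA ℂ N) p).2

theorem integralWrt_of_mem {n : ℕ} {x : FC}
    (hx : x ∈ riemannRochSpace (Finsupp.single (cusp N) (n : ℤ))) : IntegralWrt ℂ jC x := by
  intro v hv
  have h := mem_rrSpace.1 hx v
  have hne : cusp N ≠ v := fun e => not_affine_cusp (N := N) (e ▸ hv)
  rwa [Finsupp.single_eq_of_ne' hne, neg_zero] at h

/-- A monic relation with polynomial coefficients in `j`. -/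
theorem exists_relation {x : FC} (hx : IntegralWrt ℂ jC x) :
    ∃ (m : ℕ) (p : ℕ → ℂ[X]), x ^ m + ∑ i ∈ Finset.range m, aeval jC (p i) * x ^ i = 0 := by
  classical
  have hxt := transcendental_jC (N := N)
  haveI := finiteDimensional_adjoin (K := ℂ) hxt
  obtain ⟨B⟩ := nonempty_reducedBasis (K := ℂ) hxt
  choose P hP using fun i => B.exists_polynomial_coord hxt (f := x * B.w i) fun v hv => by
    simpa using (hx v hv).mul (B.integral i v hv)
  set χ := (Matrix.of P).charpoly with hχ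
  set φ : ℂ[X] →+* FC := ((aeval jC : ℂ[X] →ₐ[ℂ] FC) : ℂ[X] →+* FC)
  have hne : B.w ≠ 0 := fun h => by
    have := B.indep.ne_zero ⟨0, Module.finrank_pos⟩
    exact this (congrFun h _)
  have hev : χ.eval₂ φ x = 0 := by
    rw [← eval_map, hχ, ← Matrix.charpoly_map, Matrix.eval_charpoly]
    refine Matrix.exists_mulVec_eq_zero_iff.1 ⟨B.w, hne, ?_⟩
    funext i
    rw [Matrix.sub_mulVec, Pi.sub_apply, Matrix.scalar_apply, Matrix.mulVec_diagonal,
      Pi.zero_apply, sub_eq_zero]
    conv_lhs => rw [← B.sum_coord hxt (x * B.w i)]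
    exact Finset.sum_congr rfl fun l _ => by rw [hP i l]; rfl
  refine ⟨χ.natDegree, fun i => χ.coeff i, ?_⟩
  rw [eval₂_eq_sum_range, Finset.sum_range_succ] at hev
  rw [(Matrix.charpoly_monic (Matrix.of P)).coeff_natDegree, map_one, one_mul, add_comm] at hev
  exact hev

/-- **Bounded denominators.** -/
theorem exists_int_mul {n : ℕ} {x : FC}
    (hx : x ∈ riemannRochSpace (Finsupp.single (cusp N) (n : ℤ)))
    (hq : ∀ i : ℤ, ∃ q : ℚ, (q : ℂ) = (x : LaurentSeries ℂ).coeff i) :
    ∃ L : ℤ, L ≠ 0 ∧ IntS (((L : FC) * x : FC) : LaurentSeries ℂ) := by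
  classical
  obtain ⟨m, p, hp⟩ := exists_relation (integralWrt_of_mem hx)
  obtain ⟨a, ha, b, hb, hab⟩ := exists_div ℂ N x.2
  choose Mp hMp using fun i => shift_aeval (N := N) (p i)
  obtain ⟨Ma, hMa⟩ := shift_of_mem_XA ha
  obtain ⟨Mb, hMb⟩ := shift_of_mem_XA hb
  set M : ℕ := max (max Ma Mb) (max ((-(x : LaurentSeries ℂ).order).toNat)
    ((Finset.range m).sup Mp))
  set s : LaurentSeries ℂ := HahnSeries.single (M : ℤ) 1
  have hs : s ≠ 0 := HahnSeries.single_ne_zero one_ne_zero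
  set f : PowerSeries ℂ := PowerSeries.mk fun i => (x : LaurentSeries ℂ).coeff ((i : ℤ) - M)
  have hf : HahnSeries.ofPowerSeries ℤ ℂ f = s * x := ofPowerSeries_shift _ M fun i hi =>
    HahnSeries.coeff_eq_zero_of_lt_order (by omega)
  have hfq : ∀ i, ∃ q : ℚ, (q : ℂ) = PowerSeries.coeff i f := fun i => by
    rw [PowerSeries.coeff_mk]; exact hq _
  obtain ⟨B, hB, hBe⟩ : ∃ B ∈ CuspForms.intSpan,
      HahnSeries.ofPowerSeries ℤ ℂ B = s * s * a := by
    obtain ⟨B, hB, e⟩ := hMa (M + M) (by omega)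
    exact ⟨B, hB, by rw [e, HahnSeries.single_mul_single, mul_one, Nat.cast_add]⟩
  have hb0 : x = 0 ∨ b ≠ 0 := by
    by_cases h : b = 0
    · exact Or.inl (Subtype.ext (by rw [hab, h, div_zero]; rfl))
    · exact Or.inr h
  rcases hb0 with rfl | hb0
  · exact ⟨1, one_ne_zero, fun i => ⟨0, by simp⟩⟩
  obtain ⟨A, hA, hAe⟩ := hMb M (by omega)
  have hA0 : A ≠ 0 := fun h => by
    rw [h, map_zero] at hAe
    exact mul_ne_zero hs hb0 hAe.symm
  have hfAB : f * A = B := HahnSeries.ofPowerSeries_injective (Γ := ℤ) (by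
    rw [map_mul, hf, hAe, hBe, show s * ↑x * (s * b) = s * s * ((↑x : LaurentSeries ℂ) * b) by ring,
      hab, div_mul_cancel₀ _ hb0])
  have hco : ∀ i, ∃ c : PowerSeries ℂ, i < m → c ∈ CuspForms.intSpan ∧
      HahnSeries.ofPowerSeries ℤ ℂ c = s ^ (m - i) * ((aeval jC (p i) : FC) : LaurentSeries ℂ) := by
    intro i
    by_cases hi : i < m
    swap
    · exact ⟨0, fun h => absurd h hi⟩
    have hle : Mp i ≤ M := (Finset.le_sup (Finset.mem_range.2 hi)).trans
      ((le_max_right _ _).trans (le_max_right _ _))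
    obtain ⟨c, hc, e⟩ := hMp i ((m - i) * M) (hle.trans (Nat.le_mul_of_pos_left M (by omega)))
    refine ⟨c, fun _ => ⟨hc, ?_⟩⟩
    rw [e, HahnSeries.single_pow, one_pow, nsmul_eq_mul]
    push_cast
    rfl
  choose c hc using hco
  have hrel : f ^ m + ∑ i ∈ Finset.range m, c i * f ^ i = 0 :=
      HahnSeries.ofPowerSeries_injective (Γ := ℤ) (by
    rw [map_add, map_sum, map_pow, hf, map_zero, mul_pow]
    have h1 := congrArg (fun y : FC => s ^ m * (y : LaurentSeries ℂ)) hp
    simp only [IntermediateField.coe_add, IntermediateField.coe_sum, IntermediateField.coe_mul,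
      IntermediateField.coe_pow, IntermediateField.coe_zero, mul_add, Finset.mul_sum,
      mul_zero] at h1
    refine Eq.trans ?_ h1
    push_cast
    rw [Finset.mul_sum]
    refine congrArg _ (Finset.sum_congr rfl fun i hi => ?_)
    have hi' := Finset.mem_range.1 hi
    rw [(hc i hi').2, hf, mul_pow]
    conv_rhs => rw [show m = (m - i) + i by omega, pow_add]
    ring)
  obtain ⟨L, t, hL, ht⟩ := CuspForms.exists_int_mul_mem_intIncl hfq hA hA0 hB hfAB m c
    (fun i hi => (hc i hi).1) hrel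
  refine ⟨L, hL, fun i => ?_⟩
  have hcast : ∀ k : ℤ, ((((L : FC) * x : FC) : LaurentSeries ℂ)).coeff k =
      (L : ℂ) * (x : LaurentSeries ℂ).coeff k := fun k => by
    rw [← map_intCast (algebraMap ℂ FC) L, IntermediateField.coe_mul]
    show (algebraMap ℂ (LaurentSeries ℂ) (L : ℂ) * _).coeff k = _
    rw [ModularCurve.algebraMap_laurentSeries_eq_single, HahnSeries.coeff_single_zero_mul]
  rw [hcast]
  rcases lt_or_ge i (-(M : ℤ)) with h | h
  · exact ⟨0, by rw [HahnSeries.coeff_eq_zero_of_lt_order (by omega)]; simp⟩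
  · obtain ⟨k, hk⟩ : ∃ k : ℕ, i = (k : ℤ) - M := ⟨(i + M).toNat, by omega⟩
    refine ⟨PowerSeries.coeff k t, ?_⟩
    have h1 := congrArg (PowerSeries.coeff k) ht
    rw [← map_intCast (PowerSeries.C (R := ℂ)), PowerSeries.coeff_C_mul,
      CuspForms.coeff_intIncl, PowerSeries.coeff_mk] at h1
    rw [hk, h1]

end FLTAgent.MW.Modular
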