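import Fermat.Agent.MW.Modular.Integral
import Fermat.Agent.MW.Datum
import Fermat.Agent.Divisible.Main

/-!
# The integral lattices in `L(n ∞)` and the datum of `X₀(N)`
-/

set_option autoImplicit false
set_option linter.unusedSectionVars false
set_option linter.style.haveILetI false

noncomputable section

namespace FLTAgent.MW.Modular

open AlgebraicCurve FLTAgent.Curves FLTAgent.Specialization FLTAgent.X0Fn FLTAgent.Divisible
  ModularCurve

variable {N : ℕ} [NeZero N]

local notation "FC" => XF ℂ N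

theorem coeff_zsmul' (z : ℤ) (x : FC) (i : ℤ) :
    ((z • x : FC) : LaurentSeries ℂ).coeff i = (z : ℂ) * (x : LaurentSeries ℂ).coeff i := by
  rw [show ((z • x : FC) : LaurentSeries ℂ) = z • (x : LaurentSeries ℂ) from
    map_zsmul (XF ℂ N).val z x, HahnSeries.coeff_smul, zsmul_eq_mul]

variable (N) in
/-- `n` times the cusp at infinity. -/
def nInf (n : ℕ) : Divisor ℂ FC := Finsupp.single (cusp N) (n : ℤ)

theorem degree_nInf (n : ℕ) : Divisor.degree (nInf N n) = n := degree_single' _ _

theorem width_nInf (n : ℕ) : width (nInf N n) = n + 1 := by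
  rw [width, degree_nInf]; omega

theorem gal_nInf (e : ℂ ≃ₐ[ℚ] ℂ) (n : ℕ) : gal N e • nInf N n = nInf N n := gal_single_cusp e _

theorem mul_mem_nInf {a b n : ℕ} (h : a + b ≤ n) {x y : FC}
    (hx : x ∈ riemannRochSpace (nInf N a)) (hy : y ∈ riemannRochSpace (nInf N b)) :
    x * y ∈ riemannRochSpace (nInf N n) := by
  refine rrSpace_mono (fun v => ?_) (mem_rrSpace_mul hx hy)
  classical
  simp only [nInf, Finsupp.add_apply]
  rw [Finsupp.single_apply, Finsupp.single_apply, Finsupp.single_apply]
  split_ifs <;> omega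

variable (N) in
/-- The series with integral coefficients in `L(n ∞)`. -/
def Lam (n : ℕ) : Submodule ℤ FC where
  carrier := {x | x ∈ riemannRochSpace (nInf N n) ∧ IntS (x : LaurentSeries ℂ)}
  zero_mem' := ⟨Submodule.zero_mem _, fun i => ⟨0, by simp⟩⟩
  add_mem' {x y} hx hy := ⟨add_mem hx.1 hy.1, fun i => by
    obtain ⟨a, ha⟩ := hx.2 i
    obtain ⟨b, hb⟩ := hy.2 i
    exact ⟨a + b, by rw [IntermediateField.coe_add, HahnSeries.coeff_add, Int.cast_add, ha, hb]⟩⟩
  smul_mem' z x hx := ⟨(riemannRochSpace (nInf N n)).smul_of_tower_mem z hx.1, fun i => by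
    obtain ⟨a, ha⟩ := hx.2 i
    exact ⟨z * a, by rw [coeff_zsmul', Int.cast_mul, ha]⟩⟩

/-- The integral coefficients in the window. -/
def winHom (n : ℕ) : Lam N n →ₗ[ℤ] (Fin (width (nInf N n)) → ℤ) where
  toFun x i := (x.2.2 (-nInf N n (cusp N) + (i : ℕ))).choose
  map_add' x y := funext fun i => Int.cast_injective (α := ℂ) (by
    rw [Pi.add_apply, Int.cast_add, Exists.choose_spec (x.2.2 _), Exists.choose_spec (y.2.2 _),
      Exists.choose_spec ((x + y).2.2 _)]
    exact HahnSeries.coeff_add)
  map_smul' z x := funext fun i => Int.cast_injective (α := ℂ) (by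
    rw [Pi.smul_apply, smul_eq_mul, Int.cast_mul, Exists.choose_spec ((z • x).2.2 _),
      RingHom.id_apply, Exists.choose_spec (x.2.2 _)]
    exact coeff_zsmul' z x.1 _)

theorem winHom_cast (n : ℕ) (x : Lam N n) (i : Fin (width (nInf N n))) :
    ((winHom n x i : ℤ) : ℂ) = trunc (nInf N n) (x : FC) i :=
  Exists.choose_spec (x.2.2 _)

theorem winHom_injective (n : ℕ) : Function.Injective (winHom (N := N) n) := by
  rw [← LinearMap.ker_eq_bot]
  refine LinearMap.ker_eq_bot'.2 fun x hx => Subtype.ext (eq_zero_of_trunc x.2.1 (funext fun i => ?_))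
  rw [← winHom_cast, hx]; simp

variable (N) in
/-- A basis of the lattice. -/
def lamBasis (n : ℕ) : Σ d : ℕ, Module.Basis (Fin d) ℤ (Lam N n) :=
  let p := Submodule.basisOfPid (Pi.basisFun ℤ (Fin (width (nInf N n))))
    (LinearMap.range (winHom (N := N) n))
  ⟨p.1, p.2.map (LinearEquiv.ofInjective _ (winHom_injective n)).symm⟩

variable (N) in
/-- The rank of the lattice. -/
def rank (n : ℕ) : ℕ := (lamBasis N n).1

variable (N) in
/-- The basis functions. -/
def bas (n : ℕ) (i : Fin (rank N n)) : FC := ((lamBasis N n).2 i : Lam N n)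

theorem bas_mem (n : ℕ) (i : Fin (rank N n)) : bas N n i ∈ Lam N n := Subtype.coe_prop _

theorem linearIndependent_bas (n : ℕ) : LinearIndependent ℂ (bas N n) := by
  have h1 : LinearIndependent ℤ fun i => winHom n ((lamBasis N n).2 i) :=
    (lamBasis N n).2.linearIndependent.map' (winHom n)
      (LinearMap.ker_eq_bot.2 (winHom_injective n))
  have h2 : LinearIndependent ℤ fun i => fun l => (winHom n ((lamBasis N n).2 i) l : ℚ) :=
    h1.map' ((Int.castAddHom ℚ).toIntLinearMap.compLeft (Fin (width (nInf N n))))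
      (LinearMap.ker_eq_bot.2 fun x y h => funext fun l => Int.cast_injective (congrFun h l))
  have h3 := linearIndependent_map (Rat.castHom ℂ)
    (LinearIndependent.iff_fractionRing (R := ℤ) (K := ℚ) |>.1 h2)
  refine LinearIndependent.of_comp (trunc (nInf N n)) ?_
  have heq : (fun i l => Rat.castHom ℂ (winHom n ((lamBasis N n).2 i) l : ℚ)) =
      trunc (nInf N n) ∘ bas N n := funext fun i => funext fun l => by
    rw [map_intCast, winHom_cast]; rfl
  rwa [heq] at h3

/-- Integral functions of `L(n ∞)` are integral combinations of the basis. -/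
theorem eq_sum_bas {n : ℕ} {x : FC} (hx : x ∈ Lam N n) :
    x = ∑ l, (((lamBasis N n).2.repr ⟨x, hx⟩ l : ℤ) : ℂ) • bas N n l := by
  have h := congrArg Subtype.val ((lamBasis N n).2.sum_repr ⟨x, hx⟩)
  refine h.symm.trans ?_
  rw [Submodule.coe_sum]
  refine Finset.sum_congr rfl fun l _ => ?_
  rw [Submodule.coe_smul, Int.cast_smul_eq_zsmul]
  rfl

theorem rat_bot_iff {x : FC} : Rat ((⊥ : IntermediateField ℚ ℂ) : Set ℂ) x ↔
    ∀ i : ℤ, ∃ q : ℚ, (q : ℂ) = (x : LaurentSeries ℂ).coeff i := by
  refine forall_congr' fun i => ?_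
  rw [SetLike.mem_coe, IntermediateField.mem_bot, Set.mem_range]
  simp

theorem rrSpace_le_span (n : ℕ) :
    riemannRochSpace (nInf N n) ≤ Submodule.span ℂ (Set.range (bas N n)) := by
  refine (le_span_rat_of_stable ⊥ le_rfl (fun e _ => gal_nInf e n) fun e _ => gal_nInf e n).trans
    (Submodule.span_le.2 ?_)
  rintro x ⟨hx, hq⟩
  obtain ⟨L, hL, hint⟩ := exists_int_mul hx (rat_bot_iff.1 hq)
  have hmem : (L : FC) * x ∈ Lam N n := ⟨by
    rw [← zsmul_eq_mul]; exact (riemannRochSpace _).smul_of_tower_mem L hx, hint⟩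
  have h : (L : FC) * x ∈ Submodule.span ℂ (Set.range (bas N n)) := by
    rw [eq_sum_bas hmem]
    exact Submodule.sum_mem _ fun l _ => Submodule.smul_mem _ _ (Submodule.subset_span ⟨l, rfl⟩)
  have h2 := Submodule.smul_mem _ ((L : ℂ)⁻¹) h
  rwa [← zsmul_eq_mul, ← Int.cast_smul_eq_zsmul ℂ L x, smul_smul,
    inv_mul_cancel₀ (Int.cast_ne_zero.2 hL), one_smul] at h2

theorem span_bas (n : ℕ) :
    Submodule.span ℂ (Set.range (bas N n)) = riemannRochSpace (nInf N n) :=
  le_antisymm (Submodule.span_le.2 (by rintro _ ⟨i, rfl⟩; exact (bas_mem n i).1)) (rrSpace_le_span n)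

theorem rank_eq_ell (n : ℕ) : (rank N n : ℤ) = ell (nInf N n) := by
  rw [ell, ← span_bas, finrank_span_eq_card (linearIndependent_bas n), Fintype.card_fin]

variable (N) in
/-- The genus. -/
def genus : ℕ := (rGenus ℂ FC).toNat

variable (N) in
/-- A threshold for the equality in Riemann's inequality. -/
def thr : ℕ := (rBound ℂ FC).toNat

theorem genus_cast : (genus N : ℤ) = rGenus ℂ FC := Int.toNat_of_nonneg rGenus_nonneg

theorem rBound_le : rBound ℂ FC ≤ (thr N : ℤ) := Int.self_le_toNat _

theorem rank_eq {n : ℕ} (hn : thr N ≤ n) : (rank N n : ℤ) = n + 1 - genus N := by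
  rw [rank_eq_ell, ell_eq (by rw [degree_nInf]; have := rBound_le (N := N); omega), degree_nInf,
    genus_cast]

/-- Past the threshold some basis function has the exact pole order. -/
theorem exists_exact_bas {m : ℕ} (hm : thr N < m) :
    ∃ i, (cusp N).ord (bas N m i) = -(m : ℤ) := by
  obtain ⟨f, hf, hQ⟩ := exists_exact (G := nInf N m)
    (by rw [degree_nInf]; have := rBound_le (N := N); omega) (cusp N)
  obtain ⟨x, ⟨i, rfl⟩, hx⟩ := not_ordGE_of_mem_span (rrSpace_le_span m hf) hQ
  refine ⟨i, ?_⟩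
  rw [((exact_iff (bas_mem m i).1).1 hx).2, nInf, Finsupp.single_eq_same]

variable (N) in
/-- The structure constants. -/
def strC (a c n : ℕ) (i : Fin (rank N a)) (i' : Fin (rank N c)) (l : Fin (rank N n)) : ℤ :=
  open scoped Classical in if h : bas N a i * bas N c i' ∈ Lam N n then (lamBasis N n).2.repr ⟨_, h⟩ l else 0

theorem mul_mem_lam {a c n : ℕ} (h : a + c ≤ n) {x y : FC} (hx : x ∈ Lam N a) (hy : y ∈ Lam N c) :
    x * y ∈ Lam N n := by
  refine ⟨mul_mem_nInf h hx.1 hy.1, fun i => ?_⟩
  rw [IntermediateField.coe_mul, HahnSeries.coeff_mul]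
  refine Finset.sum_induction _ (fun c : ℂ => ∃ z : ℤ, (z : ℂ) = c)
    (fun u v hu hv => by
      obtain ⟨z, hz⟩ := hu
      obtain ⟨w, hw⟩ := hv
      exact ⟨z + w, by rw [Int.cast_add, hz, hw]⟩) ⟨0, Int.cast_zero⟩ fun q _ => ?_
  obtain ⟨z, hz⟩ := hx.2 q.1
  obtain ⟨w, hw⟩ := hy.2 q.2
  exact ⟨z * w, by rw [Int.cast_mul, hz, hw]⟩

theorem bas_mul {a c n : ℕ} (h : a + c ≤ n) (i : Fin (rank N a)) (i' : Fin (rank N c)) :
    bas N a i * bas N c i' = ∑ l, (strC N a c n i i' l : ℂ) • bas N n l := by
  have hm := mul_mem_lam h (bas_mem a i) (bas_mem c i')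
  exact (eq_sum_bas hm).trans
    (Finset.sum_congr rfl fun l _ => by unfold strC; rw [dif_pos hm])

variable (N) in
/-- The datum of `X₀(N)`. -/
def datum : Datum where
  g := genus N
  n₀ := thr N + genus N
  g_le := Nat.le_add_left _ _
  dim := rank N
  str := strC N

/-- The realisation over `ℂ` along an embedding. -/
def complexRealisation {k : Type} [Field k] (j : k →+* ℂ) : Realisation (datum N) k where
  K := ℂ
  F := XF ℂ N
  O := cusp N
  j := j
  b := bas N
  indep := linearIndependent_bas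
  mem n i := (bas_mem n i).1
  span n _ := rrSpace_le_span n
  mul_b a c n h i i' := by
    rw [bas_mul h]
    exact Finset.sum_congr rfl fun l _ => by rw [map_intCast j, Algebra.smul_def]; rfl
  rr G hG := by
    have h := rBound_le (N := N)
    have h' : (datum N).n₀ = thr N + genus N := rfl
    rw [ell_eq (by rw [h'] at hG; push_cast at hG; omega), ← genus_cast]
    rfl

theorem datum_dim_eq (n : ℕ) (hn : (datum N).n₀ ≤ n) :
    (datum N).dim n + (datum N).g = n + 1 := by
  have h' : (datum N).n₀ = thr N + genus N := rfl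
  have := rank_eq (N := N) (n := n) (by omega)
  show rank N n + genus N = n + 1
  omega

/-- A field of characteristic zero and at most continuum cardinality embeds in `ℂ`. -/
theorem exists_embedding_complex (k : Type) [Field k] [CharZero k]
    (hk : Cardinal.mk k ≤ Cardinal.continuum) : Nonempty (k →+* ℂ) := by
  let F := FractionRing (MvPolynomial ℂ k)
  have hF : Cardinal.mk F = Cardinal.continuum := by
    rw [Cardinal.mk_fractionRing, MvPolynomial.cardinalMk_eq_max, Cardinal.mk_complex,
      max_eq_right hk, max_eq_left Cardinal.aleph0_le_continuum]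
  have hL : Cardinal.mk (AlgebraicClosure F) = Cardinal.continuum := by
    refine le_antisymm ((Algebra.IsAlgebraic.cardinalMk_le_max F (AlgebraicClosure F)).trans ?_) ?_
    · rw [hF, max_eq_left Cardinal.aleph0_le_continuum]
    · exact hF.ge.trans (Cardinal.mk_le_of_injective (algebraMap F (AlgebraicClosure F)).injective)
  let f : k →+* AlgebraicClosure F := (algebraMap F (AlgebraicClosure F)).comp
    ((algebraMap (MvPolynomial ℂ k) F).comp MvPolynomial.C)
  haveI : CharZero (AlgebraicClosure F) := charZero_of_injective_ringHom f.injective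
  obtain ⟨e⟩ := IsAlgClosed.ringEquiv_of_equiv_of_charZero (K := AlgebraicClosure F) (L := ℂ)
    (hL ▸ Cardinal.aleph0_lt_continuum) (Cardinal.eq.1 (hL.trans Cardinal.mk_complex.symm))
  exact ⟨e.toRingHom.comp f⟩

theorem mk_le_continuum (k : Type) [MetricSpace k] [TopologicalSpace.SeparableSpace k] [Nonempty k] :
    Cardinal.mk k ≤ Cardinal.continuum := by
  obtain ⟨d, hd⟩ := TopologicalSpace.exists_dense_seq k
  refine (Cardinal.mk_le_of_injective (f := fun x n => dist x (d n)) fun x y h => ?_).trans ?_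
  · by_contra hne
    obtain ⟨n, hn⟩ := hd.exists_dist_lt x (half_pos (dist_pos.2 hne))
    have h1 := congrFun h n
    simp only at h1
    have h2 := dist_triangle_right x y (d n)
    linarith
  · rw [← Cardinal.power_def, Cardinal.mk_real, Cardinal.mk_nat, Cardinal.continuum_power_aleph0]

end FLTAgent.MW.Modular
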