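import Fermat.Agent.MW.Modular.Lattice
import Fermat.Agent.FlatModel.Modular
import Fermat.Agent.Frobenius.Exists
import Fermat.Agent.MW.Global

/-!
# The datum of `X₀(N)` over almost all residue fields
-/

set_option autoImplicit false
set_option linter.unusedSectionVars false
set_option linter.style.haveILetI false
set_option synthInstance.maxHeartbeats 400000
set_option maxHeartbeats 1000000

noncomputable section

open IsLocalRing

namespace FLTAgent.MW.Modular

open AlgebraicCurve FLTAgent.Curves FLTAgent.Specialization FLTAgent.X0Fn FLTAgent.Divisible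
  ModularCurve

local notation "QA" => AlgebraicClosure ℚ

variable {N : ℕ} [NeZero N]

local notation "FC" => XF ℂ N
local notation "FQ" => XF (AlgebraicClosure ℚ) N

theorem exists_series (n : ℕ) (i : Fin (rank N n)) :
    ∃ z : LaurentSeries ℤ, coeffMap (Int.castRingHom ℂ) z = (bas N n i : LaurentSeries ℂ) := by
  choose c hc using (bas_mem (N := N) n i).2
  have hsupp : BddBelow (Function.support c) := ⟨(bas N n i : LaurentSeries ℂ).order, fun k hk =>
    HahnSeries.order_le_of_coeff_ne_zero (by rw [← hc]; exact Int.cast_ne_zero.2 hk)⟩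
  exact ⟨HahnSeries.ofSuppBddBelow c hsupp, HahnSeries.ext (funext fun k =>
    (coeffMap_coeff _ _ k).trans (hc k))⟩

variable (N) in
/-- The integral series of a basis function. -/
def ser (n : ℕ) (i : Fin (rank N n)) : LaurentSeries ℤ := (exists_series n i).choose

theorem ser_spec (n : ℕ) (i : Fin (rank N n)) :
    coeffMap (Int.castRingHom ℂ) (ser N n i) = (bas N n i : LaurentSeries ℂ) :=
  (exists_series n i).choose_spec

theorem ser_coeff (n : ℕ) (i : Fin (rank N n)) (k : ℤ) :
    ((ser N n i).coeff k : ℂ) = (bas N n i : LaurentSeries ℂ).coeff k := by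
  rw [← ser_spec]; rfl

theorem coeff_sum' {R : Type*} [CommRing R] {ι : Type*} (s : Finset ι) (f : ι → LaurentSeries R)
    (k : ℤ) : (∑ l ∈ s, f l).coeff k = ∑ l ∈ s, (f l).coeff k := by
  classical
  induction s using Finset.induction with
  | empty => simp
  | insert a s ha ih => simp [Finset.sum_insert ha, ih]

theorem coe_sum_smul_bas {n : ℕ} (c : Fin (rank N n) → ℂ) (k : ℤ) :
    ((∑ l, c l • bas N n l : FC) : LaurentSeries ℂ).coeff k =
      ∑ l, c l * (bas N n l : LaurentSeries ℂ).coeff k := by
  rw [IntermediateField.coe_sum, coeff_sum']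
  refine Finset.sum_congr rfl fun l _ => ?_
  rw [IntermediateField.coe_smul, Algebra.smul_def,
    ModularCurve.algebraMap_laurentSeries_eq_single, HahnSeries.coeff_single_zero_mul]

theorem ser_mul {a c n : ℕ} (h : a + c ≤ n) (i : Fin (rank N a)) (i' : Fin (rank N c)) :
    ser N a i * ser N c i' = ∑ l, HahnSeries.single 0 (strC N a c n i i' l) * ser N n l := by
  refine HahnSeries.ext (funext fun k => Int.cast_injective (α := ℂ) ?_)
  have h1 := congrArg (fun y : FC => (y : LaurentSeries ℂ).coeff k) (bas_mul h i i')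
  simp only [IntermediateField.coe_mul] at h1
  rw [coe_sum_smul_bas] at h1
  rw [← ser_spec, ← ser_spec, ← map_mul, coeffMap_coeff] at h1
  rw [coeff_sum', Int.cast_sum]
  refine h1.trans (Finset.sum_congr rfl fun l _ => ?_)
  rw [HahnSeries.coeff_single_zero_mul, Int.cast_mul, ser_coeff]

/-- The series over a commutative ring. -/
def serIn (R : Type*) [CommRing R] (n : ℕ) (i : Fin (rank N n)) : LaurentSeries R :=
  coeffMap (Int.castRingHom R) (ser N n i)

theorem coeffMap_serIn {R S : Type*} [CommRing R] [CommRing S] (f : R →+* S) (n : ℕ)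
    (i : Fin (rank N n)) : coeffMap f (serIn R n i) = serIn S n i := by
  rw [serIn, ModularCurve.coeffMap_coeffMap,
    ModularCurve.coeffMap_congr (g := Int.castRingHom S) (RingHom.ext_int _ _)]
  rfl

theorem bas_indep {n : ℕ} (c : Fin (rank N n) → ℂ) (h : ∑ l, c l • bas N n l = (0 : FC)) :
    ∀ l, c l = 0 :=
  Fintype.linearIndependent_iff.1 (linearIndependent_bas (N := N) n) c h

theorem bas_coords {n : ℕ} {x : FC} (hx : x ∈ riemannRochSpace (nInf N n)) :
    ∃ c : Fin (rank N n) → ℂ, ∑ l, c l • bas N n l = x :=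
  (Submodule.mem_span_range_iff_exists_fun (R := ℂ) (v := bas N n) (x := x)).1
    (rrSpace_le_span (N := N) n hx)

theorem bas_eq_of_sum {n : ℕ} {c c' : Fin (rank N n) → ℂ}
    (h : (∑ l, c l • bas N n l : FC) = ∑ l, c' l • bas N n l) : c = c' := by
  refine funext fun l => sub_eq_zero.1 (bas_indep (fun l => c l - c' l) ?_ l)
  simp only [sub_smul, Finset.sum_sub_distrib]
  rw [sub_eq_zero]; exact h

variable (N) in
/-- The cusp at infinity over the algebraic numbers. -/
def vInf : Place QA FQ := below ⟨cusp N, special_cusp⟩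

theorem exists_basQ (n : ℕ) (i : Fin (rank N n)) : ∃ y : FQ, emb N y = bas N n i :=
  exists_emb fun k => by
    rw [← ser_coeff]
    exact mem_acl_empty.2 ⟨((ser N n i).coeff k : QA), map_intCast kap _⟩

variable (N) in
/-- The basis functions over the algebraic numbers. -/
def basQ (n : ℕ) (i : Fin (rank N n)) : FQ := (exists_basQ n i).choose

theorem emb_basQ (n : ℕ) (i : Fin (rank N n)) : emb N (basQ N n i) = bas N n i :=
  (exists_basQ n i).choose_spec

theorem coe_basQ (n : ℕ) (i : Fin (rank N n)) :
    (basQ N n i : LaurentSeries QA) = serIn QA n i := by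
  refine HahnSeries.ext (funext fun k => kap.injective ?_)
  have h1 : (coeffMap kap (basQ N n i : LaurentSeries QA)).coeff k =
      (bas N n i : LaurentSeries ℂ).coeff k := by
    rw [← emb_basQ]; rfl
  rw [coeffMap_coeff] at h1
  rw [h1, ← ser_coeff, serIn, coeffMap_coeff]
  exact (map_intCast kap _).symm

theorem mem_iff_emb {n : ℕ} {y : FQ} :
    y ∈ riemannRochSpace (Finsupp.single (vInf N) (n : ℤ)) ↔
      emb N y ∈ riemannRochSpace (nInf N n) := by
  classical
  have hab : above N (vInf N) = cusp N := above_below _ special_cusp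
  rcases eq_or_ne y 0 with rfl | hy
  · simp
  have hy' : emb N y ≠ 0 := (map_ne_zero (emb N)).2 hy
  have hL : liftDiv N (Finsupp.single (vInf N) (n : ℤ)) = nInf N n := by
    show Finsupp.mapDomain (above N) _ = _
    rw [Finsupp.mapDomain_single, hab]; rfl
  rw [mem_rrSpace_iff_divOf hy, mem_rrSpace_iff_divOf hy', ← liftDiv_divOf, ← hL, ← map_add]
  constructor
  · intro h v
    by_cases hv : Algebraic' v
    · rw [← above_below v hv, liftDiv_above]; exact h _
    · rw [liftDiv_of_not _ hv]; exact le_rfl
  · intro h v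
    have := h (above N v)
    rwa [liftDiv_above] at this

theorem basQ_mem (n : ℕ) (i : Fin (rank N n)) :
    basQ N n i ∈ riemannRochSpace (Finsupp.single (vInf N) (n : ℤ)) :=
  mem_iff_emb.2 (emb_basQ n i ▸ (bas_mem n i).1)

theorem emb_sum {n : ℕ} (a : Fin (rank N n) → QA) :
    emb N (∑ l, a l • basQ N n l) = ∑ l, kap (a l) • bas N n l := by
  rw [map_sum]
  refine Finset.sum_congr rfl fun l _ => ?_
  rw [Algebra.smul_def, map_mul, emb_algebraMap, emb_basQ, Algebra.smul_def]

theorem ell_vInf (n : ℕ) :
    ell (Finsupp.single (vInf N) (n : ℤ) : Divisor QA FQ) = rank N n := by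
  have hli : LinearIndependent QA (basQ N n) := Fintype.linearIndependent_iff.2 fun a ha l => by
    have h := congrArg (emb N) ha
    rw [emb_sum, map_zero] at h
    exact kap.injective ((bas_indep (fun l => kap (a l)) h l).trans (map_zero kap).symm)
  have hsp : Submodule.span QA (Set.range (basQ N n)) =
      riemannRochSpace (Finsupp.single (vInf N) (n : ℤ)) := by
    refine le_antisymm (Submodule.span_le.2 (by rintro _ ⟨i, rfl⟩; exact basQ_mem n i)) fun y hy => ?_
    obtain ⟨c, hc⟩ := bas_coords ((mem_iff_emb (y := y)).1 hy)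
    have hfix : ∀ l, c l ∈ acl (∅ : Set ℂ) := fun l => mem_of_fixed _ fun e he => by
      have h2 : ∑ l, (e (c l) - c l) • bas N n l = 0 := by
        simp only [sub_smul, Finset.sum_sub_distrib]
        rw [sub_eq_zero]
        have h3 := congrArg (fun f : FC => gal N e • f) hc
        simp only [(rat_emb y).gal_eq he] at h3
        rw [← h3.trans hc.symm, Finset.smul_sum]
        refine Finset.sum_congr rfl fun l _ => ?_
        rw [gal_smul, ← emb_basQ, (rat_emb _).gal_eq he]
      exact sub_eq_zero.1 (bas_indep (fun l => e (c l) - c l) h2 l)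
    choose a ha using fun l => mem_acl_empty.1 (hfix l)
    refine (Submodule.mem_span_range_iff_exists_fun QA).2 ⟨a, (emb N).injective ?_⟩
    rw [emb_sum]
    simpa [ha] using hc
  rw [ell, ← hsp, finrank_span_eq_card hli, Fintype.card_fin]

theorem rGenus_QA : rGenus QA FQ = genus N := by
  have hn := Int.self_le_toNat (rBound QA FQ)
  set n := max (thr N) (rBound QA FQ).toNat
  have h1 := ell_vInf (N := N) n
  have h2 : (rBound QA FQ).toNat ≤ n := le_max_right _ _
  rw [ell_eq (by rw [degree_single']; omega), degree_single', rank_eq (le_max_left _ _)] at h1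
  omega

theorem exists_lead (m : ℕ) : ∃ c : ℤ, c ≠ 0 ∧ (thr N < m → ∃ i,
    (ser N m i).coeff (-(m : ℤ)) = c ∧ ∀ k < -(m : ℤ), (ser N m i).coeff k = 0) := by
  by_cases hm : thr N < m
  swap
  · exact ⟨1, one_ne_zero, fun h => absurd h hm⟩
  obtain ⟨i, hi⟩ := exists_exact_bas hm
  have hne := (linearIndependent_bas (N := N) m).ne_zero i
  have hord : (bas N m i : LaurentSeries ℂ).order = -(m : ℤ) :=
    (TorsionHom.order_coe _ _).trans hi
  refine ⟨(ser N m i).coeff (-(m : ℤ)), fun h0 => ?_, fun _ => ⟨i, rfl, fun k hk => ?_⟩⟩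
  · have h1 := ser_coeff m i (-(m : ℤ))
    rw [h0, Int.cast_zero, ← hord] at h1
    exact hne (Subtype.ext (HahnSeries.coeff_order_eq_zero.1 h1.symm))
  · refine Int.cast_injective (α := ℂ) ?_
    rw [ser_coeff, HahnSeries.coeff_eq_zero_of_lt_order (hord ▸ hk), Int.cast_zero]

variable (N) in
/-- A leading coefficient in degree `m`. -/
def lead (m : ℕ) : ℤ := (exists_lead (N := N) m).choose

variable (N) in
/-- The number whose prime factors are avoided. -/
def badNum : ℕ := 6 * N * ∏ m ∈ Finset.Icc (thr N + 1) (2 * thr N + 1), (lead N m).natAbs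

theorem badNum_ne_zero : badNum N ≠ 0 :=
  mul_ne_zero (mul_ne_zero (by norm_num) (NeZero.ne N)) (Finset.prod_ne_zero_iff.2 fun m _ =>
    Int.natAbs_ne_zero.2 (exists_lead (N := N) m).choose_spec.1)

/-- Saturation: the reductions of the basis stay independent over the prime field. -/
theorem saturated (p : ℕ) [hp : Fact p.Prime] (n : ℕ) (c : Fin (rank N n) → ℤ)
    (h : ∀ k : ℤ, (p : ℤ) ∣ ∑ l, c l * (ser N n l).coeff k) : ∀ l, (p : ℤ) ∣ c l := by
  obtain ⟨y, hydef⟩ : ∃ y : FC, y = ∑ l, ((c l : ℂ) / p) • bas N n l := ⟨_, rfl⟩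
  have hp0 : (p : ℂ) ≠ 0 := Nat.cast_ne_zero.2 hp.out.ne_zero
  have hy : y ∈ Lam N n := ⟨hydef ▸ Submodule.sum_mem _ fun l _ =>
      Submodule.smul_mem _ _ (bas_mem n l).1, fun k => by
      obtain ⟨d, hd⟩ := h k
      refine ⟨d, ?_⟩
      rw [hydef, coe_sum_smul_bas]
      have h1 := congrArg (fun z : ℤ => (z : ℂ)) hd
      push_cast at h1
      simp only [← ser_coeff, div_mul_eq_mul_div, ← Finset.sum_div]
      rw [h1, mul_div_cancel_left₀ _ hp0]⟩
  intro l
  have h2 := congrFun (bas_eq_of_sum (hydef.symm.trans (eq_sum_bas hy))) l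
  refine ⟨(lamBasis N n).2.repr ⟨y, hy⟩ l, Int.cast_injective (α := ℂ) ?_⟩
  rw [div_eq_iff hp0] at h2
  rw [h2, Int.cast_mul, Int.cast_natCast, mul_comm]

section Abstract

variable {K F : Type*} [Field K] [Field F] [Algebra K F] [IsAlgClosed K] [IsFunctionField K F]

theorem single_nat_mono {O : Place K F} {a b : ℕ} (h : a ≤ b) :
    (Finsupp.single O (a : ℤ) : Divisor K F) ≤ Finsupp.single O (b : ℤ) := fun w => by
  classical
  rw [Finsupp.single_apply, Finsupp.single_apply]
  split_ifs <;> omega

theorem exists_exact_all (O : Place K F) (T : ℕ)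
    (hbase : ∀ m, T < m → m ≤ 2 * T + 1 → ∃ f ∈ riemannRochSpace (Finsupp.single O (m : ℤ)),
      f ≠ 0 ∧ O.ord f = -(m : ℤ)) :
    ∀ m : ℕ, T < m → ∃ f ∈ riemannRochSpace (Finsupp.single O (m : ℤ)),
      f ≠ 0 ∧ O.ord f = -(m : ℤ) := by
  intro m
  induction m using Nat.strong_induction_on with
  | _ m ih =>
    intro hm
    by_cases hbig : m ≤ 2 * T + 1
    · exact hbase m hm hbig
    obtain ⟨f, hf, hf0, hfo⟩ := ih (T + 1) (by omega) (by omega)
    obtain ⟨g, hg, hg0, hgo⟩ := ih (m - (T + 1)) (by omega) (by omega)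
    refine ⟨f * g, rrSpace_mono (fun w => ?_) (mem_rrSpace_mul hf hg), mul_ne_zero hf0 hg0,
      by rw [O.ord_mul hf0 hg0, hfo, hgo]; omega⟩
    classical
    rw [Finsupp.add_apply, Finsupp.single_apply, Finsupp.single_apply, Finsupp.single_apply]
    split_ifs <;> omega

theorem ell_eq_of_exact_all {O : Place K F} {T g : ℕ} (hg : rGenus K F = g)
    (h : ∀ m : ℕ, T < m → ∃ f ∈ riemannRochSpace (Finsupp.single O (m : ℤ)),
      f ≠ 0 ∧ O.ord f = -(m : ℤ)) (G : Divisor K F)
    (hG : ((T + g : ℕ) : ℤ) ≤ Divisor.degree G) : ell G = Divisor.degree G + 1 - g := by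
  have hlow : ∀ n : ℕ, T ≤ n →
      ell (Finsupp.single O (T : ℤ) : Divisor K F) + ((n : ℤ) - T) ≤
        ell (Finsupp.single O (n : ℤ) : Divisor K F) := by
    intro n hn
    induction n, hn using Nat.le_induction with
    | base => simp
    | succ n hn ih =>
        obtain ⟨f, hf, hf0, hfo⟩ := h (n + 1) (by omega)
        have hlt : riemannRochSpace (Finsupp.single O (n : ℤ)) <
            riemannRochSpace (Finsupp.single O ((n + 1 : ℕ) : ℤ)) := by
          refine lt_of_le_of_ne (rrSpace_mono (single_nat_mono n.le_succ)) fun h => ?_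
          rw [← h] at hf
          have h3 := (mem_rrSpace.1 hf O).le_ord hf0
          rw [Finsupp.single_eq_same, hfo] at h3
          omega
        have h4 : ell (Finsupp.single O (n : ℤ)) + 1 ≤
            ell (Finsupp.single O ((n + 1 : ℕ) : ℤ) : Divisor K F) := by
          unfold ell
          exact_mod_cast Submodule.finrank_lt_finrank_of_lt hlt
        push_cast at h4 ⊢
        omega
  have hthr : ell (Finsupp.single O (T : ℤ) : Divisor K F) ≤ T + 1 - g := by
    have h1 := hlow (max T (rBound K F).toNat) (le_max_left _ _)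
    rw [ell_eq (G := Finsupp.single O ((max T _ : ℕ) : ℤ)) (by rw [degree_single']; omega),
      degree_single', hg] at h1
    omega
  have hlower : ∀ G : Divisor K F, Divisor.degree G + 1 - g ≤ ell G := fun G => by
    rw [← hg]
    exact (exists_riemann (K := K) (F := F)).choose_spec.choose_spec.2.1 G
  set G₀ : Divisor K F := Finsupp.single O (T : ℤ)
  have hdG : Divisor.degree G₀ = T := degree_single' _ _
  have hpos : 0 < ell (G - G₀) := by
    have h1 := hlower (G - G₀)
    rw [map_sub, hdG] at h1
    push_cast at hG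
    omega
  obtain ⟨f, hf, hf0⟩ := (Submodule.ne_bot_iff (riemannRochSpace (G - G₀))).1 fun hb => by
    rw [ell, hb, finrank_bot] at hpos; omega
  have hle : G₀ ≤ G - divOf K f⁻¹ := fun w => by
    have := (mem_rrSpace.1 hf w).le_ord hf0
    simp only [Finsupp.sub_apply, divOf_apply, w.ord_inv] at this ⊢
    omega
  have h1 := ell_sub_le hle
  rw [ell_sub_divOf G (inv_ne_zero hf0), map_sub, degree_divOf, hdG] at h1
  have h2 := hlower G
  omega

theorem span_eq_of_card {O : Place K F} {n d : ℕ} {b : Fin d → F} (hi : LinearIndependent K b)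
    (hb : ∀ i, b i ∈ riemannRochSpace (Finsupp.single O (n : ℤ)))
    (hd : ell (Finsupp.single O (n : ℤ) : Divisor K F) ≤ d) :
    riemannRochSpace (Finsupp.single O (n : ℤ)) ≤ Submodule.span K (Set.range b) := by
  refine (Submodule.eq_of_le_of_finrank_le (Submodule.span_le.2
    (by rintro _ ⟨i, rfl⟩; exact hb i)) ?_).ge
  rw [finrank_span_eq_card hi, Fintype.card_fin]
  exact Nat.cast_le.1 hd

end Abstract

section Residue

variable {p : ℕ} [Fact p.Prime] {A : ValuationSubring QA} (hA : A.LiesOverPrime p)
  [IsAlgClosed (ResidueField A)]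
  (hN : (N : ResidueField A) ≠ 0)
  [IsFunctionField (ResidueField A) (modularFunctionFieldFullC (ResidueField A) N)]

local notation "KK" => ResidueField A

theorem coe_A_basQ (n : ℕ) (i : Fin (rank N n)) :
    coeffMap A.subtype (serIn A n i) = (basQ N n i : LaurentSeries QA) :=
  (coeffMap_serIn _ n i).trans (coe_basQ n i).symm

include hN in
theorem serIn_mem (n : ℕ) (i : Fin (rank N n)) :
    serIn KK n i ∈ modularFunctionFieldFullC KK N := by
  rw [← coeffMap_serIn (residue A)]
  exact res_mem_full residue_surjective N hN (laurentReduction_res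
    (E := X0Bar N) (π := residue A) (y := serIn A n i) (by rw [coe_A_basQ]; exact (basQ N n i).2))

include hN in
theorem res_basQ (n : ℕ) (i : Fin (rank N n)) :
    (modularModel residue_surjective N hN).Res (basQ N n i) ⟨serIn KK n i, serIn_mem hN n i⟩ := by
  have hy : coeffMap A.subtype (serIn A n i) ∈ X0Bar N := by rw [coe_A_basQ]; exact (basQ N n i).2
  have hyk : coeffMap (residue A) (serIn A n i) ∈ modularFunctionFieldFullC KK N := by
    rw [coeffMap_serIn]; exact serIn_mem hN n i
  have h := modularModel_res_series residue_surjective N hN hy hyk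
  have e1 : (⟨_, hy⟩ : X0Bar N) = basQ N n i := Subtype.ext (coe_A_basQ n i)
  have e2 : (⟨_, hyk⟩ : modularFunctionFieldFullC KK N) = ⟨_, serIn_mem hN n i⟩ :=
    Subtype.ext (coeffMap_serIn _ n i)
  rwa [e1, e2] at h

include hA in
theorem indep_serIn (n : ℕ) (g : Fin (rank N n) → KK)
    (hg : ∀ k : ℤ, ∑ l, g l * (serIn KK n l).coeff k = 0) : ∀ l, g l = 0 := by
  classical
  haveI := FrobTrace.charP_residueField hA
  let V : Fin (rank N n) → ℤ → ZMod p := fun l k => ((ser N n l).coeff k : ZMod p)
  have h0 : ∀ c : Fin (rank N n) → ZMod p, c ≠ 0 → ∃ k, ∑ l, c l * V l k ≠ 0 := by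
    intro c hc
    by_contra! hall
    refine hc (funext fun l => ?_)
    have h := saturated p n (fun l => (c l).val) (fun k => by
      rw [← ZMod.intCast_zmod_eq_zero_iff_dvd]
      push_cast
      simpa [V] using hall k) l
    rw [← ZMod.intCast_zmod_eq_zero_iff_dvd] at h
    simpa using h
  choose! w hw using h0
  set W : Finset ℤ := Finset.univ.image w
  have hli : LinearIndependent (ZMod p) fun l (k : W) => V l k :=
    Fintype.linearIndependent_iff.2 fun c hc l => by
      by_contra hl
      have hc0 : c ≠ 0 := fun h => hl (congrFun h l)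
      refine hw c hc0 ?_
      have := congrFun hc ⟨w c, Finset.mem_image_of_mem w (Finset.mem_univ c)⟩
      simpa [Finset.sum_apply] using this
  refine Fintype.linearIndependent_iff.1 (linearIndependent_map (ZMod.castHom dvd_rfl KK) hli) g
    (funext fun k => ?_)
  simpa [V, serIn, coeffMap_coeff, Finset.sum_apply] using hg k

theorem order_jq : (jqModC KK).order = -1 := by
  have h1 : ∀ k : ℤ, (jqModC KK).coeff k = (HahnSeries.ofPowerSeries ℤ KK
      (jNum.map (Int.castRingHom KK))).coeff (k + 1) := fun k => by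
    have := HahnSeries.coeff_single_mul_add (r := (1 : KK))
      (x := HahnSeries.ofPowerSeries ℤ KK (jNum.map (Int.castRingHom KK))) (a := k + 1) (b := -1)
    rwa [one_mul, add_neg_cancel_right] at this
  have h2 : (jqModC KK).coeff (-1) ≠ 0 := by
    rw [coeff_jqModC_neg_one]; exact one_ne_zero
  refine le_antisymm (HahnSeries.order_le_of_coeff_ne_zero h2) ?_
  by_contra hlt
  have hne : jqModC KK ≠ 0 := fun h => h2 (by rw [h]; rfl)
  refine mt HahnSeries.coeff_order_eq_zero.1 hne ?_
  rw [h1, ofPowerSeries_coeff_of_neg _ (by omega)]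

include hN in
theorem exists_place_infinity : ∃ v : Place KK (modularFunctionFieldFullC KK N),
    ∀ f : modularFunctionFieldFullC KK N, (f : LaurentSeries KK).order = v.ord f := by
  set jb : modularFunctionFieldFullC KK N := ⟨jqModC KK, jqModC_mem_full KK N⟩
  obtain ⟨v, c, hc, hv⟩ := Curves.exists_place (C := KK) (κ := RingHom.id KK)
    ((modularFunctionFieldFullC KK N).val : modularFunctionFieldFullC KK N →+* LaurentSeries KK)
    (fun a => by simp [HahnSeries.C_apply, ModularCurve.algebraMap_laurentSeries_eq_single])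
    (t := jb⁻¹) (by
      show 0 < ((jb⁻¹ : modularFunctionFieldFullC KK N) : LaurentSeries KK).order
      rw [IntermediateField.coe_inv, lord_inv, order_jq]; norm_num)
  have h1 := hv jb⁻¹
  change ((jb⁻¹ : modularFunctionFieldFullC KK N) : LaurentSeries KK).order = _ at h1
  rw [IntermediateField.coe_inv, lord_inv, order_jq, neg_neg] at h1
  have hc1 : c = 1 := Int.eq_one_of_dvd_one hc.le ⟨_, h1⟩
  exact ⟨v, fun f => (hv f).trans (by rw [hc1, one_mul])⟩

/-- The basis functions in characteristic `p`. -/
def basK (n : ℕ) (i : Fin (rank N n)) : modularFunctionFieldFullC KK N :=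
  ⟨serIn KK n i, serIn_mem hN n i⟩

include hA in
theorem linearIndependent_basK (n : ℕ) : LinearIndependent KK (basK (A := A) hN n) := by
  refine Fintype.linearIndependent_iff.2 fun g hg => indep_serIn hA n g fun k => ?_
  have h := congrArg (fun f : modularFunctionFieldFullC KK N => (f : LaurentSeries KK).coeff k) hg
  simp only [IntermediateField.coe_sum, coeff_sum', IntermediateField.coe_zero,
    HahnSeries.coeff_zero] at h
  refine (Finset.sum_congr rfl fun l _ => ?_).trans h
  rw [IntermediateField.coe_smul, Algebra.smul_def,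
    ModularCurve.algebraMap_laurentSeries_eq_single, HahnSeries.coeff_single_zero_mul]
  rfl

theorem basK_mem (hM : (modularModel (A := A) residue_surjective N hN).Smooth) (n : ℕ)
    (i : Fin (rank N n)) : basK hN n i ∈
      riemannRochSpace (Finsupp.single (Model.place hM (vInf N)) (n : ℤ)) := by
  have h := Model.res_mem_rrSpace hM (basQ_mem n i) (res_basQ hN n i)
  rwa [Model.divMap_single] at h

theorem basK_mul {a c n : ℕ} (h : a + c ≤ n) (i : Fin (rank N a)) (i' : Fin (rank N c)) :
    basK (A := A) hN a i * basK hN c i' = ∑ l, algebraMap KK (modularFunctionFieldFullC KK N)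
      (strC N a c n i i' l : KK) * basK hN n l := by
  refine Subtype.ext ?_
  rw [IntermediateField.coe_mul, IntermediateField.coe_sum]
  show serIn KK a i * serIn KK c i' = _
  rw [serIn, serIn, ← map_mul, ser_mul h, map_sum]
  refine Finset.sum_congr rfl fun l _ => ?_
  rw [IntermediateField.coe_mul, map_mul, coeffMap_single, eq_intCast]
  show _ = algebraMap KK (LaurentSeries KK) _ * serIn KK n l
  rw [ModularCurve.algebraMap_laurentSeries_eq_single]
  rfl

include hA in
theorem exists_exact_basK (hp : ¬ p ∣ badNum N)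
    (hM : (modularModel (A := A) residue_surjective N hN).Smooth)
    (m : ℕ) (hm : thr N < m) (hbig : m ≤ 2 * thr N + 1) :
    ∃ f ∈ riemannRochSpace (Finsupp.single (Model.place hM (vInf N)) (m : ℤ)),
      f ≠ 0 ∧ (Model.place hM (vInf N)).ord f = -(m : ℤ) := by
  haveI := FrobTrace.charP_residueField hA
  obtain ⟨v, hv⟩ := exists_place_infinity (A := A) hN
  obtain ⟨i, hi, hlow⟩ := (exists_lead (N := N) m).choose_spec.2 hm
  have hne : (serIn KK m i).coeff (-(m : ℤ)) ≠ 0 := by
    rw [serIn, coeffMap_coeff, eq_intCast, hi]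
    intro h0
    refine hp (Dvd.dvd.mul_left ?_ _)
    exact (Int.natCast_dvd.1 ((CharP.intCast_eq_zero_iff KK p _).1 h0)).trans
      (Finset.dvd_prod_of_mem (fun m => (lead N m).natAbs) (Finset.mem_Icc.2 ⟨by omega, hbig⟩))
  have hs0 : serIn KK m i ≠ 0 := fun h => hne (by rw [h]; rfl)
  have hord : (serIn KK m i).order = -(m : ℤ) := by
    refine le_antisymm (HahnSeries.order_le_of_coeff_ne_zero hne) ?_
    by_contra hlt
    refine mt HahnSeries.coeff_order_eq_zero.1 hs0 ?_
    have h0 := hlow _ (not_le.1 hlt)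
    simp only [serIn, coeffMap_coeff] at h0 ⊢
    rw [h0, map_zero]
  have hvb : v.ord (basK hN m i) = -(m : ℤ) := (hv (basK hN m i)).symm.trans hord
  have hb0 := (linearIndependent_basK hA hN m).ne_zero i
  have hvO : v = Model.place hM (vInf N) := by
    by_contra hne'
    have h2 := (mem_rrSpace.1 (basK_mem hN hM m i) v).le_ord hb0
    rw [Finsupp.single_eq_of_ne hne', hvb] at h2
    omega
  exact ⟨_, basK_mem hN hM m i, hb0, hvO ▸ hvb⟩

include hA in
theorem exists_residue_realisation (hp : ¬ p ∣ badNum N)
    (hM : (modularModel (A := A) residue_surjective N hN).Smooth) :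
    Nonempty (Realisation (datum N) (ZMod p)) := by
  haveI := FrobTrace.charP_residueField hA
  have hg : rGenus KK (modularFunctionFieldFullC KK N) = genus N :=
    hM.rGenus_eq.trans rGenus_QA
  have hall := exists_exact_all (Model.place hM (vInf N)) (thr N) (exists_exact_basK hA hN hp hM)
  have hrr := ell_eq_of_exact_all hg hall
  refine ⟨{ K := KK, F := modularFunctionFieldFullC KK N, O := Model.place hM (vInf N),
            j := ZMod.castHom dvd_rfl KK, b := basK hN, indep := linearIndependent_basK hA hN,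
            mem := basK_mem hN hM, span := fun n hn => ?_,
            mul_b := fun a c n h i i' => ?_, rr := fun G hG => hrr G hG }⟩
  · refine span_eq_of_card (linearIndependent_basK hA hN n) (basK_mem hN hM n) ?_
    have h' : (datum N).n₀ = thr N + genus N := rfl
    have h2 := rank_eq (N := N) (n := n) (by omega)
    rw [hrr _ (by rw [degree_single']; omega), degree_single']
    exact h2.ge
  · rw [basK_mul hN h]
    exact Finset.sum_congr rfl fun l _ => by rw [map_intCast (ZMod.castHom (dvd_refl p) KK)]; rfl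

end Residue

theorem exists_good (p : ℕ) [hp : Fact p.Prime] (h : ¬ p ∣ badNum N) :
    Nonempty (Realisation (datum N) (ZMod p)) := by
  obtain ⟨A, hA⟩ := Frobenius.exists_liesOverPrime p hp.out
  haveI : IsAlgClosed (ResidueField A) := FrobTrace.isAlgClosed_residueField A
  have h6N : ¬ p ∣ 6 * N := fun hd => h (hd.mul_right _)
  have hpN : ¬ p ∣ N := fun hd => h6N (hd.mul_left 6)
  have h5 : 5 ≤ p := by
    have h2 := hp.out.two_le
    by_contra hlt
    interval_cases p
    · exact h6N (Dvd.dvd.mul_right (by norm_num) _)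
    · exact h6N (Dvd.dvd.mul_right (by norm_num) _)
    · exact absurd hp.out (by norm_num)
  obtain ⟨N₂, N', h12, h23, hN', haux, ⟨d, hd, hdl⟩, -, h2⟩ := exists_levels hp.out hpN
  obtain rfl := h2 h5
  haveI : NeZero N' := ⟨fun h => hN' (h ▸ dvd_zero p)⟩
  have hk : ∀ {n : ℕ}, ¬ p ∣ n → (n : ResidueField A) ≠ 0 := natCast_ne_zero_residue hA
  haveI := isFunctionField_full (ResidueField A) N₂ rfl (hk hpN)
  haveI := isFunctionField_full (ResidueField A) N' rfl (hk hN')
  exact exists_residue_realisation hA (hk hpN) h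
    (smooth_of_dvd residue_surjective (hk hpN) h23 (hk hN') hd (hk hdl)
      (GoodModel.goodLevel hA N' haux hN'))

variable (N) in
/-- The inputs of the height machine for `X₀(N)`. -/
def input : Input (datum N) where
  rat := complexRealisation (algebraMap ℚ ℂ)
  real := complexRealisation Complex.ofRealHom
  padic p _ := complexRealisation
    (exists_embedding_complex ℚ_[p] (mk_le_continuum ℚ_[p])).some
  bad := (badNum N).primeFactors.subtype Nat.Prime
  good p hp h := (exists_good p fun hd => h (Finset.mem_subtype.2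
    (Nat.mem_primeFactors.2 ⟨hp.out, hd, badNum_ne_zero⟩))).some
  dim_eq := datum_dim_eq

end FLTAgent.MW.Modular
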